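/-
S55 / 34-CYCLO-RECIP, part 34-P (helper78): the wild case (H2)/(H4) INSTANTIATED in helper73's
local level model: `E = Idele73.Local.Elev p L = ℚ_p(ι L)`, `DE p L = Gal(E/ℚ_p)`,
`EUnits p L = Rep.ofAlgebraAutOnUnits ℚ_[p] E`, for a level `L ⊇ ℚ_n = towerField p n` and the
character `towerCharE := towerCharL ∘ jE` of helper87 on the decomposition group.
-/
import Mathlib
import Fermat.Agent.S55.CycloGlobal87.Level
import Fermat.Agent.S55.Idele73.Local
import Fermat.Agent.S55.CycloRecip78.FiniteLevelH4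

set_option autoImplicit false

namespace Fermat.Agent.S55.CycloRecip78

open Fermat.Agent.S55.Idele73.Basic Fermat.Agent.S55.Idele73.Local
  Fermat.Agent.S55.CycloGlobal87 Fermat.Agent.S55.GlobalInv91 Fermat.Agent.S55.CycloRecip90

variable (p : ℕ) [hp : Fact p.Prime] (hp2 : p ≠ 2) (n : ℕ)
  (L : IntermediateField ℚ Qbar) [Normal ℚ L] (h : towerField p n ≤ L)

/-- the tower character on the decomposition group `Gal(E/ℚ_p)`, `E = ℚ_p(ι L)`. -/
noncomputable def towerCharE : DE p L →* Multiplicative (ZMod (p ^ n)) :=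
  (towerCharL p L hp2 n h).comp (jE p L)

theorem towerCharE_apply (g : DE p L) :
    towerCharE p hp2 n L h g = towerCharL p L hp2 n h (jE p L g) := rfl

/-- `towerCharE` inflates to the local tower character `locTowerChar`. -/
theorem towerCharE_resE (τ : Gq p) :
    towerCharE p hp2 n L h (resE p L τ) = locTowerChar p hp2 n τ := by
  rw [towerCharE_apply, jE_resE]
  exact DFunLike.congr_fun (towerCharL_comp_locHom p L hp2 n h p) τ

theorem towerCharE_restrictNormalHom (τ : GalP p) :
    towerCharE p hp2 n L h (AlgEquiv.restrictNormalHom (Elev p L) τ) = locTowerChar p hp2 n τ :=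
  towerCharE_resE p hp2 n L h τ

/-- `towerCharE` is onto (total ramification at `p`). -/
theorem towerCharE_surjective : Function.Surjective (towerCharE p hp2 n L h) := by
  intro c
  obtain ⟨τ, hτ⟩ := locTowerChar_surjective p hp2 n c
  exact ⟨resE p L τ, by rw [towerCharE_resE, hτ]⟩

/-- **(H2) in the model**: the carry cocycle `δχ ∪ p` is a coboundary in `EUnits p L`. -/
theorem carry_prime_isCob₂_Elev :
    IsCob₂ (EUnits p L)
      (carry (EUnits p L) (towerCharE p hp2 n L h)
        (Additive.ofMul (Units.map (algebraMap ℚ_[p] (Elev p L) : ℚ_[p] →* Elev p L) pUnit))) :=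
  carry_prime_isCob₂' p hp2 n (Elev p L) (towerCharE p hp2 n L h)
    (towerCharE_restrictNormalHom p hp2 n L h)

/-- **(R3) in the model**: for a generator `sE` of the decomposition group modulo `ker χ`,
`x ∈ ℚ_pˣ` is a cyclic product from the `ker χ`-invariants of `Eˣ` iff `fakeSymbol n x = 1`. -/
theorem exists_prod_pow_iff_fakeSymbol_Elev (sE : DE p L)
    (hsE : towerCharE p hp2 n L h sE = Multiplicative.ofAdd 1) (x : ℚ_[p]ˣ) :
    (∃ b : (Elev p L)ˣ, (∀ g, towerCharE p hp2 n L h g = 1 → g (b : Elev p L) = b) ∧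
      ∏ i ∈ Finset.range (p ^ n), (sE ^ i) (b : Elev p L) = algebraMap ℚ_[p] (Elev p L) x) ↔
      fakeSymbol (p := p) n x = 1 :=
  exists_prod_pow_iff_fakeSymbol_level p hp2 n (Elev p L) (towerCharE p hp2 n L h)
    (towerCharE_restrictNormalHom p hp2 n L h) sE hsE x

/-- **(H4) in the model**: for `n ≥ 1` some unit of `ℤ_p` has a carry cocycle which is NOT a
coboundary in `EUnits p L`. -/
theorem exists_unit_carry_not_isCob₂_Elev [FiniteDimensional ℚ L] (hn : n ≠ 0) :
    ∃ u : ℤ_[p]ˣ, ¬ IsCob₂ (EUnits p L)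
      (carry (EUnits p L) (towerCharE p hp2 n L h)
        (Additive.ofMul (Units.map (algebraMap ℚ_[p] (Elev p L) : ℚ_[p] →* Elev p L)
          (Units.map (PadicInt.Coe.ringHom (p := p)).toMonoidHom u)))) :=
  exists_unit_carry_not_isCob₂ p hp2 n (Elev p L) (towerCharE p hp2 n L h)
    (towerCharE_restrictNormalHom p hp2 n L h) hn

end Fermat.Agent.S55.CycloRecip78
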