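/-
S55 / 34-CYCLO-RECIP, part 34t-TAME-RAM (helper78), file 1: the tower character at a prime
`q ≠ p` in local terms.

For `q ≠ p` and a finite extension `K / ℚ_q` inside `Ω = PadicAlgCl q` with residue cardinality
`q ^ f`, the restriction of the character of the cyclotomic `ℤ_p`-tower to `G_K` is
`(f · dlog ⟨q⟩) · χ_{K, p^m}`, where `χ_{K,n}` is the Frobenius character of `K` (helper28
`LocInv28.FrobChar.chi`).  This is literally the hypothesis `hψ` of
`LocInv28.Abstract.IsLocalInv.inv_carry_of_char`.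
-/
import Mathlib
import Fermat.Agent.S55.CycloGlobal87.Level
import Fermat.Agent.S55.LocInv28.FrobChar
import Fermat.Agent.S55.FrobFin98.Cyclic

set_option autoImplicit false

namespace Fermat.Agent.S55.CycloRecip78

open Fermat.Agent.Lib.FrobeniusExists Fermat.Agent.S55.CycloTower46.Global
  Fermat.Agent.S55.CycloTower46.Char Fermat.Agent.S55.CycloTower46.Local
  Fermat.Agent.S55.CycloRecip90 Fermat.Agent.S55.GlobalInv91 Fermat.Agent.S55.CycloGlobal87
  Fermat.Agent.S55.UnrExt93 Fermat.Agent.S55.LocInv28.FrobChar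

section TameChar

variable (p : ℕ) [hp : Fact p.Prime] (hp2 : p ≠ 2) (q : ℕ) [hq : Fact q.Prime]

/-- `p ^ m` as a positive natural number. -/
def ppow (m : ℕ) : ℕ+ := ⟨p ^ m, pow_pos hp.out.pos m⟩

@[simp] theorem coe_ppow (m : ℕ) : ((ppow p m : ℕ+) : ℕ) = p ^ m := rfl

/-- `φ(p^(m+1))` as a positive natural number. -/
def ptot (m : ℕ) : ℕ+ := ⟨(p ^ (m + 1)).totient, Nat.totient_pos.2 (pow_pos hp.out.pos _)⟩

@[simp] theorem coe_ptot (m : ℕ) : ((ptot p m : ℕ+) : ℕ) = (p ^ (m + 1)).totient := rfl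

theorem ppow_dvd_ptot (m : ℕ) : ((ppow p m : ℕ+) : ℕ) ∣ ((ptot p m : ℕ+) : ℕ) := by
  rw [coe_ppow, coe_ptot, Nat.totient_prime_pow_succ hp.out]
  exact dvd_mul_right _ _

variable {q}

/-- the coprimality of `q` and `p` for distinct primes. -/
theorem coprime_of_ne (hqp : q ≠ p) : q.Coprime p := (Nat.coprime_primes hq.out hp.out).2 hqp

variable (K : IntermediateField ℚ_[q] (PadicAlgCl q)) [FiniteDimensional ℚ_[q] K]

omit [FiniteDimensional ℚ_[q] K] in
/-- the `p^(m+1)`-th roots of unity are `(Q^d - 1)`-th roots of unity, `Q = q^f` the residue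
cardinality of `K` and `d = φ(p^(m+1))`. -/
theorem pow_resCard_sub_one_eq_one (hqp : q ≠ p) {f : ℕ} (hf : resCard q K = q ^ f) (m : ℕ)
    {η : PadicAlgCl q} (hη : η ^ p ^ (m + 1) = 1) :
    η ^ (resCard q K ^ (p ^ (m + 1)).totient - 1) = 1 := by
  have hcop : Nat.Coprime (resCard q K) (p ^ (m + 1)) := by
    rw [hf]
    exact Nat.Coprime.pow _ _ (coprime_of_ne p hqp)
  have h1 : resCard q K ^ (p ^ (m + 1)).totient ≡ 1 [MOD p ^ (m + 1)] :=
    Nat.ModEq.pow_totient hcop
  have hQpos : 0 < resCard q K := by rw [hf]; exact pow_pos hq.out.pos _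
  have hdvd : p ^ (m + 1) ∣ resCard q K ^ (p ^ (m + 1)).totient - 1 :=
    (Nat.modEq_iff_dvd' (Nat.one_le_pow _ _ hQpos)).mp h1.symm
  obtain ⟨k, hk⟩ := hdvd
  rw [hk, pow_mul, hη, one_pow]

/-- **the local cyclotomic character mod `p^(m+1)` on `G_K`** is `q ^ (f · χ_{K,d})`. -/
theorem localCycChar_eq_pow_chi (hqp : q ≠ p) {f : ℕ} (hf : resCard q K = q ^ f) (m : ℕ)
    (s : K.fixingSubgroup) :
    localCycChar q (p ^ (m + 1)) (s : Gq q) =
      ZMod.unitOfCoprime q (Nat.Coprime.pow_right (m + 1) (coprime_of_ne p hqp)) ^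
        (f * (chiVal (chi K (ptot p m)) s).val) := by
  apply Units.ext
  symm
  rw [Units.val_pow_eq_pow_val, ZMod.coe_unitOfCoprime, ← Nat.cast_pow]
  refine localCycChar_unique q (s : Gq q) _ fun η hη => ?_
  have h1 := chi_spec K (ptot p m) s (pow_resCard_sub_one_eq_one p K hqp hf m hη)
  rw [h1, hf, ← pow_mul, ZMod.val_natCast]
  exact pow_eq_pow_mod _ hη

/-- **the tower character on `G_K`, `K / ℚ_q` finite with `q ≠ p`**, is
`(f · dlog ⟨q⟩) · χ_{K, p^m}` (`hψ` of `IsLocalInv.inv_carry_of_char`, literally). -/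
theorem chiVal_towerChar_local (hqp : q ≠ p) {f : ℕ} (hf : resCard q K = q ^ f) (m : ℕ)
    (s : K.fixingSubgroup) :
    chiVal ((towerChar p hp2 m).comp (localGaloisToGlobal q)) (s : Gq q) =
      ((f * (Multiplicative.toAdd (dlog p hp2 m ⟨angle (p := p) m q (coprime_of_ne p hqp),
        angle_mem_Gamma m q _⟩)).val : ℕ) : ZMod (p ^ m)) *
        (chiVal (chi K (ppow p m)) s : ZMod (p ^ m)) := by
  set k := (chiVal (chi K (ptot p m)) s).val with hk
  set a := Multiplicative.toAdd (dlog p hp2 m ⟨angle (p := p) m q (coprime_of_ne p hqp),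
    angle_mem_Gamma m q _⟩) with ha
  -- the value of `gam`
  have hgam : gam p m (localGaloisToGlobal q (s : Gq q)) =
      angle (p := p) m q (coprime_of_ne p hqp) ^ (f * k) := by
    rw [gam_apply, ← localCycChar_apply, localCycChar_eq_pow_chi p K hqp hf m s, angle, ← pow_mul,
      ← pow_mul, mul_comm]
  -- the value of the tower character
  have htow : towerChar p hp2 m (localGaloisToGlobal q (s : Gq q)) =
      (dlog p hp2 m ⟨angle (p := p) m q (coprime_of_ne p hqp), angle_mem_Gamma m q _⟩) ^ (f * k) := by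
    rw [towerChar_apply, ← map_pow]
    congr 1
    apply Subtype.ext
    rw [coe_gamG, hgam]
    rfl
  -- compatibility of the Frobenius characters
  have hcompat : (chiVal (chi K (ppow p m)) s).val = k % p ^ m :=
    chi_compat K (ppow p m) (ptot p m) s (ppow_dvd_ptot p m)
  have hkm : ((k : ℕ) : ZMod (p ^ m)) = (chiVal (chi K (ppow p m)) s : ZMod (p ^ m)) := by
    have h1 : ((k % p ^ m : ℕ) : ZMod (p ^ m)) = (chiVal (chi K (ppow p m)) s : ZMod (p ^ m)) := by
      rw [← hcompat]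
      exact ZMod.natCast_zmod_val _
    rw [← h1, ZMod.natCast_mod]
  change Multiplicative.toAdd (towerChar p hp2 m (localGaloisToGlobal q (s : Gq q))) = _
  rw [htow, toAdd_pow, ← ha, nsmul_eq_mul, ← hkm]
  push_cast
  rw [ZMod.natCast_zmod_val]
  ring

end TameChar

end Fermat.Agent.S55.CycloRecip78
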