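/-
S55 / 34-CYCLO-RECIP, part 34t-TAME-RAM (helper78), file 2: the normalised valuation of the base
field `ℚ_q` (as an intermediate field `K = ⊥` of `Ω = PadicAlgCl q`, e.g. the fixed field of the
whole Galois group of a finite Galois extension) on rational numbers is `padicValRat`.
-/
import Mathlib
import Fermat.Agent.S55.LocField17.Ord
import Fermat.Agent.S55.FrobFin98.Cyclic

set_option autoImplicit false

namespace Fermat.Agent.S55.CycloRecip78

open Fermat.Agent.S55.LocField17 Fermat.Agent.S55.UnrExt93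

section TameOrd

variable {q : ℕ} [hq : Fact q.Prime]

/-- the residue cardinality of the base field. -/
theorem resCard_eq_of_eq_bot (K : LF q) (hK : K = ⊥) : resCard q K = q := by
  subst hK
  exact Fermat.Agent.S55.FrobFin98.resCard_bot q

/-- `q` is a uniformizer of the base field. -/
theorem unifNorm_eq_of_eq_bot (K : LF q) [FiniteDimensional ℚ_[q] K] (hK : K = ⊥) :
    unifNorm K = (q : ℝ)⁻¹ := by
  have hqK : algebraMap ℚ_[q] (PadicAlgCl q) (q : ℚ_[q]) ∈ K := K.algebraMap_mem _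
  have hnorm : ‖algebraMap ℚ_[q] (PadicAlgCl q) (q : ℚ_[q])‖ = (q : ℝ)⁻¹ := by
    rw [PadicAlgCl.norm_extends, Padic.norm_p]
  have hunif : IsUnif K ⟨algebraMap ℚ_[q] (PadicAlgCl q) (q : ℚ_[q]), hqK⟩ := by
    refine ⟨?_, ?_, ?_⟩
    · intro h0
      have h1 : algebraMap ℚ_[q] (PadicAlgCl q) (q : ℚ_[q]) = 0 := congrArg Subtype.val h0
      rw [map_eq_zero] at h1
      exact hq.out.ne_zero (by exact_mod_cast h1)
    · show ‖algebraMap ℚ_[q] (PadicAlgCl q) (q : ℚ_[q])‖ < 1
      rw [hnorm]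
      exact inv_lt_one_of_one_lt₀ (by exact_mod_cast hq.out.one_lt)
    · rintro ⟨x, hx⟩ hlt
      show ‖x‖ ≤ ‖algebraMap ℚ_[q] (PadicAlgCl q) (q : ℚ_[q])‖
      rw [hK] at hx
      obtain ⟨y, rfl⟩ := IntermediateField.mem_bot.1 hx
      change ‖algebraMap ℚ_[q] (PadicAlgCl q) y‖ < 1 at hlt
      rw [PadicAlgCl.norm_extends] at hlt
      rw [hnorm, PadicAlgCl.norm_extends]
      have h := (Padic.norm_le_pow_iff_norm_lt_pow_add_one y (-1)).2 (by simpa using hlt)
      simpa using h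
  rw [← hunif.norm_eq]
  exact hnorm

/-- **the normalised valuation of the base field on rational numbers is `padicValRat`.** -/
theorem ord_eq_padicValRat_of_eq_bot (K : LF q) [FiniteDimensional ℚ_[q] K] (hK : K = ⊥)
    (x : K) (b : ℚ) (hb : b ≠ 0)
    (hx : (x : PadicAlgCl q) = algebraMap ℚ_[q] (PadicAlgCl q) ((b : ℚ) : ℚ_[q])) :
    ord K x = padicValRat q b := by
  have hx0 : x ≠ 0 := by
    intro h0
    rw [h0] at hx
    have h1 : algebraMap ℚ_[q] (PadicAlgCl q) ((b : ℚ) : ℚ_[q]) = 0 := hx.symm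
    rw [map_eq_zero] at h1
    exact hb (by exact_mod_cast h1)
  have hb' : ((b : ℚ) : ℚ_[q]) ≠ 0 := by exact_mod_cast hb
  rw [ord_eq_iff hx0, hx, PadicAlgCl.norm_extends, unifNorm_eq_of_eq_bot K hK,
    Padic.norm_eq_zpow_neg_valuation hb', Padic.valuation_ratCast, inv_zpow, zpow_neg]

end TameOrd

end Fermat.Agent.S55.CycloRecip78
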