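/-
S55 / 34-CYCLO-RECIP, part 34t-TAME-RAM (helper78), file 3: the base formula of the tower
reciprocity law at the RAMIFIED tame primes.

For a prime `q ≠ p` and a level `L ⊇ ℚ_n` (possibly ramified at `q`), the `q`-part of the global
system built from helper93's local system of invariants `UnrExt93.locSys q L h` takes the value
`v_q(b) · dlog ⟨q⟩ / p^n` on `δχ_n ∪ b`, `b ∈ ℚˣ`: this is the hypothesis `_hQt` of
`CycloRecip37.TowerRecip.tower_reciprocity` (helper37) at the primes `q ∈ S ∖ {p}`, and the binder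
`hI` of helper98's `FrobSys98.Tame.hQt_tameSysP`.
-/
import Mathlib
import Fermat.Agent.S55.UnrExt93.LocSysInst
import Fermat.Agent.S55.CycloRecip37.TowerRecip
import Fermat.Agent.S55.CycloRecip78.TameChar
import Fermat.Agent.S55.CycloRecip78.TameOrd

set_option autoImplicit false

namespace Fermat.Agent.S55.CycloRecip78

open Fermat.Agent.S55.Idele73.Basic Fermat.Agent.S55.Idele73.Local
  Fermat.Agent.S55.CycloRecip37.GSys Fermat.Agent.S55.CycloRecip37.CoindSys
  Fermat.Agent.S55.CycloRecip37.SysMore Fermat.Agent.S55.CycloRecip37.IdeleSys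
  Fermat.Agent.S55.CycloRecip37.TowerRecip
  Fermat.Agent.S55.GlobalInv91 Fermat.Agent.S55.CycloGlobal87 Fermat.Agent.S55.CycloRecip90
  Fermat.Agent.S55.QZ33 Fermat.Agent.S55.KummerBr95

section TameRam

variable {p : ℕ} [hp : Fact p.Prime] (hp2 : p ≠ 2)
  (L : IntermediateField ℚ Qbar) [Normal ℚ L] [FiniteDimensional ℚ L]
  (q : Nat.Primes)

omit [FiniteDimensional ℚ L] in
/-- the tower character on the decomposition group `Gal(E/ℚ_q)`, `E = ℚ_q(ι L)`, inflates to the
restriction of the global tower character. -/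
theorem towerCharL_jE_resE (n : ℕ) (h : towerField p n ≤ L) (τ : LocField17.Gq (q : ℕ)) :
    towerCharL p L hp2 n h (jE (q : ℕ) L (resE (q : ℕ) L τ)) =
      (towerChar p hp2 n).comp (localGaloisToGlobal (q : ℕ)) τ := by
  rw [jE_resE]
  exact DFunLike.congr_fun (towerCharL_comp_locHom p L hp2 n h (q : ℕ)) τ

/-- **the local value at a tame prime** (ramified in `L` or not): for `q ≠ p`,
`inv_q (δχ_n ∪ b) = v_q(b) · dlog ⟨q⟩ / p^n` for `b ∈ ℚˣ`. -/
theorem locSys_top_carry_tame (hpres : LocalPres q) (hqp : (q : ℕ) ≠ p) (n : ℕ)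
    (h : towerField p n ≤ L) (b₀ : ℚˣ) :
    (UnrExt93.locSys q L hpres).S ⊤
      (carry (EUnits (q : ℕ) L) ((towerCharL p L hp2 n h).comp (jE (q : ℕ) L))
        (baseUnit L (ratUnitsToPadic (q : ℕ) b₀))) = tameVal hp2 q n b₀ := by
  have hbK : (((Additive.toMul (baseUnit L (ratUnitsToPadic (q : ℕ) b₀) :
      Additive (↥(Elev (q : ℕ) L))ˣ) : (↥(Elev (q : ℕ) L))ˣ) : Elev (q : ℕ) L) :
      PadicAlgCl (q : ℕ)) ∈ (⊥ : LocField17.LF (q : ℕ)) :=
    IntermediateField.mem_bot.2 ⟨((b₀ : ℚ) : ℚ_[(q : ℕ)]), rfl⟩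
  have hχ : ∀ g : LocInv28.Padic.GK (⊥ : LocField17.LF (q : ℕ)),
      chiVal ((towerCharL p L hp2 n h).comp (jE (q : ℕ) L))
        (UnrExt93.resE (Elev (q : ℕ) L) (g : LocField17.Gq (q : ℕ))) =
      (((1 * (Multiplicative.toAdd (dlog p hp2 n ⟨angle (p := p) n q (coprime_of_ne p hqp),
        angle_mem_Gamma n q _⟩)).val : ℕ) : ℕ) : ZMod (ppow p n)) *
        chiVal (LocInv28.FrobChar.chi (⊥ : LocField17.LF (q : ℕ)) (ppow p n)) g := by
    intro g
    have h1 := chiVal_towerChar_local p hp2 (⊥ : LocField17.LF (q : ℕ)) hqp (f := 1)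
      (by rw [Fermat.Agent.S55.FrobFin98.resCard_bot, pow_one]) n g
    exact (congrArg Multiplicative.toAdd
      (towerCharL_jE_resE hp2 L q n h (g : LocField17.Gq (q : ℕ)))).trans h1
  have key := UnrExt93.locSys_S_carry q L hpres ⊤ (⊥ : LocField17.LF (q : ℕ))
    (UnrExt93.fixK_top _) (ppow p n)
    ((towerCharL p L hp2 n h).comp (jE (q : ℕ) L)) _ hχ
    (baseUnit L (ratUnitsToPadic (q : ℕ) b₀)) (fun σ _ => baseUnit_invariant L _ σ) hbK
  have hord := ord_eq_padicValRat_of_eq_bot (⊥ : LocField17.LF (q : ℕ)) rfl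
    ⟨_, hbK⟩ (b₀ : ℚ) b₀.ne_zero rfl
  rw [hord] at key
  refine key.trans ?_
  rw [tameVal, dif_neg hqp, one_mul]
  rfl

/-- **the base formula at a ramified tame prime**: `_hQt` of `tower_reciprocity` / `hI` of
`hQt_tameSysP`, LITERALLY, at one prime `q ≠ p`, for the `q`-part of the global system built from
the local invariants. -/
theorem qSys_top_carry_tame (hpres : LocalPres q) (hqp : (q : ℕ) ≠ p) (n : ℕ)
    (h : towerField p n ≤ L) (b₀ : ℚˣ) :
    (qSys L q (UnrExt93.locSys q L hpres) (AddMonoidHom.id QZ)).S ⊤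
      (carry (Lx L) (towerCharL p L hp2 n h) (ratUnit L b₀)) = tameVal hp2 q n b₀ := by
  have h1 := comap_coindSys_carry_top (UnrExt93.locSys q L hpres) (diagE (q : ℕ) L)
    (towerCharL p L hp2 n h) (ratUnit L b₀) (ratUnit_invariant L b₀)
  rw [diagE_apply, map_one, Module.End.one_apply, diagLocE_ratUnit] at h1
  rw [← locSys_top_carry_tame hp2 L q hpres hqp n h b₀]
  change AddMonoidHom.id QZ (((coindSys (j := jE (q : ℕ) L) (UnrExt93.locSys q L hpres)).comap
    (diagE (q : ℕ) L)).S ⊤ _) = _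
  rw [AddMonoidHom.id_apply, h1]

end TameRam

end Fermat.Agent.S55.CycloRecip78
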