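/-
S55 / 34-CYCLO-RECIP, part 34-P (helper78): the degree-`p^n` layer of `K(ζ_{p^(n+1)})/K` inside a
Galois extension `Ω/K`, described through the cyclotomic character `χ = hζ.autToPow K`:
an intermediate field `E` with fixing subgroup `{τ | χ(τ)^(p-1) = 1}` has degree `p^n`, is
contained in `K(ζ)`, is Galois over `K` with cyclic group (when `Φ_{p^(n+1)}` is irreducible over
`K`, `p` odd).  For `K = ℚ_[p]` irreducibility is `Irred.lean`.
-/
import Mathlib
import Fermat.Agent.S55.CycloRecip78.Wild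

set_option autoImplicit false

namespace Fermat.Agent.S55.CycloRecip78

open Polynomial IntermediateField

section Generic

variable {K Ω : Type*} [Field K] [Field Ω] [Algebra K Ω] (p : ℕ) [hp : Fact p.Prime] {n : ℕ}
  {ζ : Ω}

instance neZero_prime_pow (k : ℕ) : NeZero (p ^ k) := ⟨pow_ne_zero _ hp.out.ne_zero⟩

/-- the mod `p^(n+1)` cyclotomic character of `Gal(Ω/K)`. -/
noncomputable def chi (hζ : IsPrimitiveRoot ζ (p ^ (n + 1))) :
    (Ω ≃ₐ[K] Ω) →* (ZMod (p ^ (n + 1)))ˣ :=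
  hζ.autToPow K

lemma chi_spec (hζ : IsPrimitiveRoot ζ (p ^ (n + 1))) (τ : Ω ≃ₐ[K] Ω) :
    τ ζ = ζ ^ ((chi (K := K) p hζ τ : (ZMod (p ^ (n + 1)))ˣ) : ZMod (p ^ (n + 1))).val :=
  (hζ.autToPow_spec K τ).symm

/-- `χ` computes the action on ALL `p^(n+1)`-th roots of unity. -/
lemma chi_spec' (hζ : IsPrimitiveRoot ζ (p ^ (n + 1))) (τ : Ω ≃ₐ[K] Ω) {ξ : Ω}
    (hξ : ξ ^ p ^ (n + 1) = 1) :
    τ ξ = ξ ^ ((chi (K := K) p hζ τ : (ZMod (p ^ (n + 1)))ˣ) : ZMod (p ^ (n + 1))).val := by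
  obtain ⟨k, -, rfl⟩ := hζ.eq_pow_of_pow_eq_one hξ
  rw [map_pow, chi_spec p hζ τ, ← pow_mul, ← pow_mul, mul_comm]

lemma chi_eq_one_iff (hζ : IsPrimitiveRoot ζ (p ^ (n + 1))) (τ : Ω ≃ₐ[K] Ω) :
    chi (K := K) p hζ τ = 1 ↔ τ ζ = ζ := by
  constructor
  · intro h
    rw [chi_spec p hζ τ, h, Units.val_one]
    rcases Nat.lt_or_ge 1 (p ^ (n + 1)) with h1 | h1
    · have : Fact (1 < p ^ (n + 1)) := ⟨h1⟩
      rw [ZMod.val_one, pow_one]
    · exact absurd (Nat.one_lt_pow (Nat.succ_ne_zero n) hp.out.one_lt) (not_lt.2 h1)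
  · intro h
    apply Units.ext
    apply ZMod.val_injective
    apply hζ.pow_inj (ZMod.val_lt _) (ZMod.val_lt _)
    rw [← chi_spec p hζ τ, h, Units.val_one]
    have h1 : 1 < p ^ (n + 1) := Nat.one_lt_pow (Nat.succ_ne_zero n) hp.out.one_lt
    have : Fact (1 < p ^ (n + 1)) := ⟨h1⟩
    rw [ZMod.val_one, pow_one]

/-- `ker χ` is the fixing subgroup of `K(ζ)`. -/
lemma ker_chi (hζ : IsPrimitiveRoot ζ (p ^ (n + 1))) :
    (chi (K := K) p hζ).ker = (K⟮ζ⟯).fixingSubgroup := by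
  ext τ
  rw [MonoidHom.mem_ker, chi_eq_one_iff, IntermediateField.mem_fixingSubgroup_iff]
  constructor
  · intro h x hx
    have : K⟮ζ⟯ ≤ IntermediateField.fixedField (Subgroup.zpowers τ) := by
      rw [IntermediateField.adjoin_simple_le_iff, IntermediateField.mem_fixedField_iff]
      intro σ hσ
      obtain ⟨k, rfl⟩ := Subgroup.mem_zpowers_iff.1 hσ
      have hfix : ∀ m : ℕ, (τ ^ m) ζ = ζ := by
        intro m
        induction m with
        | zero => simp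
        | succ m ih => rw [pow_succ, AlgEquiv.mul_apply, h, ih]
      rcases Int.eq_nat_or_neg k with ⟨m, rfl | rfl⟩
      · rw [zpow_natCast]; exact hfix m
      · rw [zpow_neg, zpow_natCast]
        have := hfix m
        calc (τ ^ m)⁻¹ ζ = (τ ^ m)⁻¹ ((τ ^ m) ζ) := by rw [this]
          _ = ζ := by rw [← AlgEquiv.mul_apply, inv_mul_cancel, AlgEquiv.one_apply]
    have hx' := this hx
    rw [IntermediateField.mem_fixedField_iff] at hx'
    exact hx' τ (Subgroup.mem_zpowers τ)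
  · intro h
    exact h ζ (IntermediateField.mem_adjoin_simple_self K ζ)

variable [IsGalois K Ω]

/-- `χ` is surjective when `Φ_{p^(n+1)}` is irreducible over `K`. -/
theorem chi_surjective (hζ : IsPrimitiveRoot ζ (p ^ (n + 1)))
    (hirr : Irreducible (cyclotomic (p ^ (n + 1)) K)) :
    Function.Surjective (chi (K := K) p hζ) := by
  intro c
  have := isCyclotomicExtension_adjoin (K := K) p hζ
  have := isGalois_adjoin (K := K) p hζ
  have hgen := isPrimitiveRoot_gen (K := K) p hζ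
  -- an automorphism of `K(ζ)` with `σ ζ = ζ^c`
  set σ : K⟮ζ⟯ ≃ₐ[K] K⟮ζ⟯ := (galEquiv (K := K) p hζ hirr).symm c with hσ
  have hσc : hgen.autToPow K σ = c := by
    have h1 : galEquiv (K := K) p hζ hirr σ = c := by
      rw [hσ, MulEquiv.apply_symm_apply]
    have h2 : galEquiv (K := K) p hζ hirr σ =
        (IsCyclotomicExtension.zeta_spec (p ^ (n + 1)) K K⟮ζ⟯).autToPow K σ := rfl
    rw [h2] at h1
    rw [← h1]
    -- the two characters agree
    apply Units.ext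
    apply ZMod.val_injective
    apply hgen.pow_inj (ZMod.val_lt _) (ZMod.val_lt _)
    rw [hgen.autToPow_spec K σ]
    obtain ⟨k, -, hk⟩ := (IsCyclotomicExtension.zeta_spec (p ^ (n + 1)) K K⟮ζ⟯).eq_pow_of_pow_eq_one
      hgen.pow_eq_one
    rw [← hk, map_pow,
      ← (IsCyclotomicExtension.zeta_spec (p ^ (n + 1)) K K⟮ζ⟯).autToPow_spec K σ, ← pow_mul,
      ← pow_mul, mul_comm]
  obtain ⟨τ, hτ⟩ := AlgEquiv.restrictNormalHom_surjective Ω σ
  refine ⟨τ, ?_⟩
  apply Units.ext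
  apply ZMod.val_injective
  apply hζ.pow_inj (ZMod.val_lt _) (ZMod.val_lt _)
  rw [← chi_spec p hζ τ]
  have h3 : τ ζ = ((σ (AdjoinSimple.gen K ζ) : K⟮ζ⟯) : Ω) := by
    rw [← hτ]
    exact (AlgEquiv.restrictNormal_commutes τ K⟮ζ⟯ (AdjoinSimple.gen K ζ)).symm
  rw [h3, ← hgen.autToPow_spec K σ, hσc]
  rfl

/-- the homomorphism `τ ↦ χ(τ)^(p-1)`. -/
noncomputable def psi (hζ : IsPrimitiveRoot ζ (p ^ (n + 1))) :
    (Ω ≃ₐ[K] Ω) →* (ZMod (p ^ (n + 1)))ˣ :=
  (powMonoidHom (p - 1)).comp (chi (K := K) p hζ)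

omit [IsGalois K Ω] in
lemma mem_ker_psi_iff (hζ : IsPrimitiveRoot ζ (p ^ (n + 1))) (τ : Ω ≃ₐ[K] Ω) :
    τ ∈ (psi (K := K) p hζ).ker ↔ (chi (K := K) p hζ τ) ^ (p - 1) = 1 := Iff.rfl

omit [IsGalois K Ω] in
lemma ker_chi_le_ker_psi (hζ : IsPrimitiveRoot ζ (p ^ (n + 1))) :
    (chi (K := K) p hζ).ker ≤ (psi (K := K) p hζ).ker := by
  intro τ hτ
  rw [mem_ker_psi_iff, MonoidHom.mem_ker.1 hτ, one_pow]

/-- `[Gal(Ω/K) : ker ψ] = p^n`. -/
theorem index_ker_psi (hζ : IsPrimitiveRoot ζ (p ^ (n + 1)))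
    (hirr : Irreducible (cyclotomic (p ^ (n + 1)) K)) (hp2 : p ≠ 2) :
    (psi (K := K) p hζ).ker.index = p ^ n := by
  have hpprime : p.Prime := hp.out
  have : IsCyclic (ZMod (p ^ (n + 1)))ˣ := ZMod.isCyclic_units_of_prime_pow p hpprime hp2 _
  have hrange : (psi (K := K) p hζ).range =
      (powMonoidHom (p - 1) : (ZMod (p ^ (n + 1)))ˣ →* _).range := by
    rw [psi, MonoidHom.range_comp, MonoidHom.range_eq_top.2 (chi_surjective p hζ hirr),
      ← MonoidHom.range_eq_map]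
  rw [Subgroup.index_ker, hrange, IsCyclic.card_powMonoidHom_range]
  have hcard : Nat.card (ZMod (p ^ (n + 1)))ˣ = p ^ n * (p - 1) := by
    rw [Nat.card_eq_fintype_card, ZMod.card_units_eq_totient,
      Nat.totient_prime_pow hpprime (Nat.succ_pos n)]
    simp
  rw [hcard]
  have hgcd : (p ^ n * (p - 1)).gcd (p - 1) = p - 1 := Nat.gcd_eq_right (dvd_mul_left _ _)
  rw [hgcd, Nat.mul_div_cancel _ (by have := hpprime.two_le; omega)]

section Layer

variable (hζ : IsPrimitiveRoot ζ (p ^ (n + 1))) (E : IntermediateField K Ω)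
  (hfix : ∀ τ : Ω ≃ₐ[K] Ω, τ ∈ E.fixingSubgroup ↔ (chi (K := K) p hζ τ) ^ (p - 1) = 1)

include hfix

omit [IsGalois K Ω] in
lemma fixingSubgroup_eq_ker_psi : E.fixingSubgroup = (psi (K := K) p hζ).ker := by
  ext τ
  rw [hfix τ, mem_ker_psi_iff]

/-- **(P4)** the layer has degree `p^n`. -/
theorem finrank_layer (hirr : Irreducible (cyclotomic (p ^ (n + 1)) K)) (hp2 : p ≠ 2) :
    Module.finrank K E = p ^ n := by
  rw [IntermediateField.finrank_eq_fixingSubgroup_index, fixingSubgroup_eq_ker_psi p hζ E hfix,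
    index_ker_psi p hζ hirr hp2]

/-- **(P4)** the layer lies in `K(ζ)`. -/
theorem layer_le_adjoin : E ≤ K⟮ζ⟯ := by
  intro x hx
  rw [← InfiniteGalois.fixedField_fixingSubgroup K⟮ζ⟯, IntermediateField.mem_fixedField_iff]
  intro τ hτ
  rw [← ker_chi p hζ] at hτ
  have hτ' : τ ∈ E.fixingSubgroup := by
    rw [fixingSubgroup_eq_ker_psi p hζ E hfix]
    exact ker_chi_le_ker_psi p hζ hτ
  exact (IntermediateField.mem_fixingSubgroup_iff E τ).1 hτ' x hx

/-- **(P4)** the layer is normal over `K`. -/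
theorem normal_layer : Normal K E := by
  rw [IntermediateField.normal_iff_forall_map_le']
  intro σ x hx
  obtain ⟨y, hy, rfl⟩ := hx
  rw [← InfiniteGalois.fixedField_fixingSubgroup E, IntermediateField.mem_fixedField_iff]
  intro τ hτ
  have hconj : σ⁻¹ * τ * σ ∈ E.fixingSubgroup := by
    rw [fixingSubgroup_eq_ker_psi p hζ E hfix] at hτ ⊢
    rw [MonoidHom.mem_ker] at hτ ⊢
    rw [map_mul, map_mul, hτ, mul_one, ← map_mul, inv_mul_cancel, map_one]
  have := (IntermediateField.mem_fixingSubgroup_iff E _).1 hconj y hy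
  have h2 : σ ((σ⁻¹ * τ * σ) y) = τ (σ y) := by
    rw [AlgEquiv.mul_apply, AlgEquiv.mul_apply, ← AlgEquiv.mul_apply σ σ⁻¹, mul_inv_cancel,
      AlgEquiv.one_apply]
  rw [this] at h2
  exact h2.symm

theorem isGalois_layer : IsGalois K E := by
  have := normal_layer p hζ E hfix
  exact ⟨⟩

/-- **(P4)** the Galois group of the layer is cyclic. -/
theorem isCyclic_gal_layer (hirr : Irreducible (cyclotomic (p ^ (n + 1)) K)) (hp2 : p ≠ 2) :
    IsCyclic (E ≃ₐ[K] E) := by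
  have := normal_layer p hζ E hfix
  have : IsCyclic (ZMod (p ^ (n + 1)))ˣ := ZMod.isCyclic_units_of_prime_pow p hp.out hp2 _
  have hker : (chi (K := K) p hζ).ker ≤ (AlgEquiv.restrictNormalHom (F := K) (K₁ := Ω) E).ker := by
    rw [IntermediateField.restrictNormalHom_ker, fixingSubgroup_eq_ker_psi p hζ E hfix]
    exact ker_chi_le_ker_psi p hζ
  let f : (ZMod (p ^ (n + 1)))ˣ →* (E ≃ₐ[K] E) :=
    (chi (K := K) p hζ).liftOfSurjective (chi_surjective p hζ hirr)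
      ⟨AlgEquiv.restrictNormalHom E, hker⟩
  have hf : Function.Surjective f := by
    intro σ
    obtain ⟨τ, rfl⟩ := AlgEquiv.restrictNormalHom_surjective Ω σ
    exact ⟨chi (K := K) p hζ τ, MonoidHom.liftOfRightInverse_comp_apply _ _ _ _ τ⟩
  exact isCyclic_of_surjective f hf

end Layer

/-- the wild layer: the fixed field of `{τ | χ(τ)^(p-1) = 1}`. -/
noncomputable def wildLayer (hζ : IsPrimitiveRoot ζ (p ^ (n + 1))) : IntermediateField K Ω :=
  IntermediateField.fixedField (psi (K := K) p hζ).ker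

/-- the wild layer has the expected fixing subgroup. -/
theorem mem_fixingSubgroup_wildLayer_iff (hζ : IsPrimitiveRoot ζ (p ^ (n + 1)))
    (τ : Ω ≃ₐ[K] Ω) :
    τ ∈ (wildLayer (K := K) p hζ).fixingSubgroup ↔ (chi (K := K) p hζ τ) ^ (p - 1) = 1 := by
  have := finiteDimensional_adjoin (K := K) p hζ
  have hopen : IsOpen ((psi (K := K) p hζ).ker : Set (Ω ≃ₐ[K] Ω)) := by
    apply Subgroup.isOpen_mono (ker_chi_le_ker_psi p hζ)
    rw [ker_chi]
    exact IntermediateField.fixingSubgroup_isOpen K⟮ζ⟯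
  have hclosed : IsClosed ((psi (K := K) p hζ).ker : Set (Ω ≃ₐ[K] Ω)) :=
    Subgroup.isClosed_of_isOpen _ hopen
  have := InfiniteGalois.fixingSubgroup_fixedField
    (⟨(psi (K := K) p hζ).ker, hclosed⟩ : ClosedSubgroup (Ω ≃ₐ[K] Ω))
  rw [wildLayer]
  rw [← mem_ker_psi_iff]
  exact (SetLike.ext_iff.1 this τ)

end Generic

section Padic

open Fermat.Agent.S55.CycloRecip90

variable (p : ℕ) [hp : Fact p.Prime] {Ω : Type*} [Field Ω] [Algebra ℚ_[p] Ω] [IsGalois ℚ_[p] Ω]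
  {n : ℕ} {ζ : Ω} (hζ : IsPrimitiveRoot ζ (p ^ (n + 1))) (E : IntermediateField ℚ_[p] Ω)
  (hfix : ∀ τ : Ω ≃ₐ[ℚ_[p]] Ω, τ ∈ E.fixingSubgroup ↔ (chi (K := ℚ_[p]) p hζ τ) ^ (p - 1) = 1)

include hfix

/-- the `p`-adic wild layer has degree `p^n` over `ℚ_p`. -/
theorem finrank_layer_padic (hp2 : p ≠ 2) : Module.finrank ℚ_[p] E = p ^ n :=
  finrank_layer p hζ E hfix (irreducible_cyclotomic_prime_pow_padic p n) hp2

/-- the `p`-adic wild layer is cyclic over `ℚ_p`. -/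
theorem isCyclic_gal_layer_padic (hp2 : p ≠ 2) : IsCyclic (E ≃ₐ[ℚ_[p]] E) :=
  isCyclic_gal_layer p hζ E hfix (irreducible_cyclotomic_prime_pow_padic p n) hp2

/-- **(R3), final form.**  Let `E/ℚ_p` be the layer of the cyclotomic `ℤ_p`-tower cut out by
`{τ | χ(τ)^(p-1) = 1}` and assume the local first inequality `[ℚ_pˣ : N Eˣ] ≥ p^n = [E:ℚ_p]`.
Then the norm group of `E` is the kernel of the explicit symbol. -/
theorem normRange_layer_eq_ker_fakeSymbol (hp2 : p ≠ 2)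
    (hidx : p ^ n ≤ (normRange ℚ_[p] E).index) :
    normRange ℚ_[p] E = (fakeSymbol (p := p) n).ker :=
  normRange_eq_ker_fakeSymbol p hp2 hζ E (layer_le_adjoin p hζ E hfix)
    (finrank_layer_padic p hζ E hfix hp2) hidx

/-- **(R3), final form**: local norms from the layer die under `ρ_p = fakeSymbol n`. -/
theorem fakeSymbol_norm_layer_eq_one (hp2 : p ≠ 2)
    (hidx : p ^ n ≤ (normRange ℚ_[p] E).index) (y : Eˣ) :
    fakeSymbol (p := p) n (Units.map (Algebra.norm ℚ_[p] : E →* ℚ_[p]) y) = 1 :=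
  fakeSymbol_norm_eq_one p hp2 hζ E (layer_le_adjoin p hζ E hfix)
    (finrank_layer_padic p hζ E hfix hp2) hidx y

end Padic

end Fermat.Agent.S55.CycloRecip78
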