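/-
S55 / 34-CYCLO-RECIP, part 34-P (helper78): the local norm index theorem over the base `ℚ_[q]`
ITSELF (not `⊥ : LF q`), obtained from helper17's `LocField17.index_norm_range_rel` (14-LOC-H in
the model `LF q`), and the resulting UNCONDITIONAL wild case (R3) in `PadicAlgCl p`.
-/
import Mathlib
import Fermat.Agent.S55.LocField17.LocHAdapt
import Fermat.Agent.S55.CycloRecip78.Layer

set_option autoImplicit false
set_option linter.style.haveILetI false

namespace Fermat.Agent.S55.CycloRecip78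

open Fermat.Agent.S55.LocField17

section Base

variable {q : ℕ} [Fact q.Prime] (E : LF q)

/-- `ℚ_[q]`-automorphisms of `E` as `⊥`-automorphisms (for `relAlgebra bot_le`). -/
noncomputable def toBot :
    letI := relAlgebra (bot_le : (⊥ : LF q) ≤ E)
    (E ≃ₐ[ℚ_[q]] E) →* (E ≃ₐ[(⊥ : LF q)] E) := by
  letI := relAlgebra (bot_le : (⊥ : LF q) ≤ E)
  exact
  { toFun := fun σ => AlgEquiv.ofRingEquiv (f := σ.toRingEquiv) (fun x => by
      obtain ⟨r, hr⟩ := IntermediateField.mem_bot.1 x.2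
      have hx : algebraMap (⊥ : LF q) E x = algebraMap ℚ_[q] E r := by
        apply Subtype.ext
        exact hr.symm
      rw [hx]
      exact σ.commutes r)
    map_one' := by ext; rfl
    map_mul' := fun _ _ => by ext; rfl }

lemma toBot_apply (σ : E ≃ₐ[ℚ_[q]] E) (x : E) :
    letI := relAlgebra (bot_le : (⊥ : LF q) ≤ E)
    toBot E σ x = σ x := rfl

lemma toBot_surjective :
    letI := relAlgebra (bot_le : (⊥ : LF q) ≤ E)
    Function.Surjective (toBot E) := by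
  letI := relAlgebra (bot_le : (⊥ : LF q) ≤ E)
  haveI := isScalarTower_rel (bot_le : (⊥ : LF q) ≤ E)
  intro τ
  refine ⟨τ.restrictScalars ℚ_[q], ?_⟩
  ext x
  rfl

variable [FiniteDimensional ℚ_[q] E]

/-- **local norm index theorem over `ℚ_[q]`**: for `E/ℚ_q` finite cyclic inside `PadicAlgCl q`,
`[ℚ_qˣ : N Eˣ] = [E : ℚ_q]`. -/
theorem index_normRange_of_cyclic [IsGalois ℚ_[q] E] [IsCyclic (E ≃ₐ[ℚ_[q]] E)] :
    (normRange ℚ_[q] E).index = Module.finrank ℚ_[q] E := by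
  have h : (⊥ : LF q) ≤ E := bot_le
  letI := relAlgebra h
  haveI := isScalarTower_rel h
  haveI : IsGalois (⊥ : LF q) E := IsGalois.tower_top_of_isGalois ℚ_[q] (⊥ : LF q) E
  obtain ⟨σ₀, hσ₀⟩ := IsCyclic.exists_generator (α := E ≃ₐ[ℚ_[q]] E)
  have hgen : ∀ τ : E ≃ₐ[(⊥ : LF q)] E, τ ∈ Subgroup.zpowers (toBot E σ₀) := by
    intro τ
    obtain ⟨τ₀, rfl⟩ := toBot_surjective E τ
    obtain ⟨k, rfl⟩ := Subgroup.mem_zpowers_iff.1 (hσ₀ τ₀)
    rw [map_zpow]
    exact Subgroup.zpow_mem_zpowers _ _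
  have hidx := index_norm_range_rel h (toBot E σ₀) hgen
  -- transport along `⊥ ≃ ℚ_[q]`
  let e : (⊥ : LF q) ≃ₐ[ℚ_[q]] ℚ_[q] := IntermediateField.botEquiv ℚ_[q] (PadicAlgCl q)
  have he : (algebraMap ℚ_[q] E).comp (e : (⊥ : LF q) →+* ℚ_[q]) = algebraMap (⊥ : LF q) E := by
    ext x
    obtain ⟨r, hr⟩ := IntermediateField.mem_bot.1 x.2
    have hx : x = algebraMap ℚ_[q] (⊥ : LF q) r := Subtype.ext hr.symm
    rw [hx]
    simp only [RingHom.coe_comp, RingHom.coe_coe, Function.comp_apply, AlgEquiv.commutes]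
    rfl
  have hnorm : ∀ y : E, e (Algebra.norm (⊥ : LF q) y) = Algebra.norm ℚ_[q] y := fun y =>
    Algebra.norm_eq_of_ringEquiv e.toRingEquiv he y
  have hmap : normRange ℚ_[q] E =
      ((Units.map (Algebra.norm (⊥ : LF q) : E →* (⊥ : LF q))).range).map
        ((Units.mapEquiv e.toMulEquiv : (⊥ : LF q)ˣ ≃* ℚ_[q]ˣ) : (⊥ : LF q)ˣ →* ℚ_[q]ˣ) := by
    ext x
    constructor
    · rintro ⟨y, rfl⟩
      refine ⟨Units.map (Algebra.norm (⊥ : LF q) : E →* (⊥ : LF q)) y, ⟨y, rfl⟩, ?_⟩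
      apply Units.ext
      exact hnorm y
    · rintro ⟨_, ⟨y, rfl⟩, rfl⟩
      refine ⟨y, ?_⟩
      apply Units.ext
      exact (hnorm y).symm
  rw [hmap, Subgroup.index_map_equiv, hidx]
  have h0 : IsScalarTower ℚ_[q] (⊥ : LF q) E := inferInstance
  have h1 := @Module.finrank_mul_finrank ℚ_[q] (⊥ : LF q) E _ _ _ _ _ _ h0 _ _ _ _
  rw [IntermediateField.finrank_bot, one_mul] at h1
  exact h1

end Base

section Wild

open Fermat.Agent.S55.CycloRecip90

/-- `PadicAlgCl p / ℚ_p` is Galois (stated as a lemma, not an instance). -/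
theorem isGalois_padicAlgCl (p : ℕ) [Fact p.Prime] : IsGalois ℚ_[p] (PadicAlgCl p) := by
  haveI : Normal ℚ_[p] (PadicAlgCl p) := IsAlgClosure.normal ℚ_[p] (PadicAlgCl p)
  exact ⟨⟩

variable (p : ℕ) [hp : Fact p.Prime] {n : ℕ} {ζ : PadicAlgCl p}
  (hζ : IsPrimitiveRoot ζ (p ^ (n + 1))) (E : LF p)
  (hfix : ∀ τ : PadicAlgCl p ≃ₐ[ℚ_[p]] PadicAlgCl p,
    τ ∈ E.fixingSubgroup ↔ (chi (K := ℚ_[p]) p hζ τ) ^ (p - 1) = 1)

include hfix

/-- **(R3), UNCONDITIONAL.**  The norm group of the degree-`p^n` layer `E` of the cyclotomic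
`ℤ_p`-tower of `ℚ_p` (inside `PadicAlgCl p`) is the kernel of the explicit symbol `fakeSymbol n`. -/
theorem normRange_layer_eq_ker (hp2 : p ≠ 2) :
    normRange ℚ_[p] E = (fakeSymbol (p := p) n).ker := by
  haveI := isGalois_padicAlgCl p
  have hE := layer_le_adjoin p hζ E hfix
  haveI := finiteDimensional_of_le_adjoin p hζ E hE
  haveI := isGalois_layer p hζ E hfix
  haveI := isCyclic_gal_layer_padic p hζ E hfix hp2
  refine normRange_layer_eq_ker_fakeSymbol p hζ E hfix hp2 ?_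
  rw [index_normRange_of_cyclic E, finrank_layer_padic p hζ E hfix hp2]

/-- **(R3), UNCONDITIONAL**: `ρ_p(N y) = 1` for `y ∈ Eˣ`. -/
theorem fakeSymbol_norm_layer (hp2 : p ≠ 2) (y : Eˣ) :
    fakeSymbol (p := p) n (Units.map (Algebra.norm ℚ_[p] : E →* ℚ_[p]) y) = 1 := by
  have h : Units.map (Algebra.norm ℚ_[p] : E →* ℚ_[p]) y ∈ normRange ℚ_[p] E := ⟨y, rfl⟩
  rw [normRange_layer_eq_ker p hζ E hfix hp2] at h
  exact h

/-- `x ∈ ℚ_pˣ` is a norm from the layer iff `ρ_p x = 1`. -/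
theorem mem_normRange_layer_iff (hp2 : p ≠ 2) (x : ℚ_[p]ˣ) :
    x ∈ normRange ℚ_[p] E ↔ fakeSymbol (p := p) n x = 1 := by
  rw [normRange_layer_eq_ker p hζ E hfix hp2, MonoidHom.mem_ker]

/-- the norm group of the layer has index `p^n`. -/
theorem index_normRange_layer (hp2 : p ≠ 2) : (normRange ℚ_[p] E).index = p ^ n := by
  rw [normRange_layer_eq_ker p hζ E hfix hp2, index_ker_fakeSymbol hp2 n]

/-- for `n ≥ 1` some element of `ℚ_pˣ` is NOT a norm from the layer. -/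
theorem exists_not_mem_normRange_layer (hp2 : p ≠ 2) (hn : n ≠ 0) :
    ∃ x : ℚ_[p]ˣ, x ∉ normRange ℚ_[p] E := by
  by_contra hall
  push Not at hall
  have htop : normRange ℚ_[p] E = ⊤ := by
    ext x; simp [hall x]
  have h1 := index_normRange_layer p hζ E hfix hp2
  rw [htop, Subgroup.index_top] at h1
  have h2 : 1 < p ^ n := Nat.one_lt_pow hn hp.out.one_lt
  omega

/-- for `n ≥ 1` some UNIT of `ℤ_p` is not a norm from the layer. -/
theorem exists_unit_not_mem_normRange_layer (hp2 : p ≠ 2) (hn : n ≠ 0) :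
    ∃ u : ℤ_[p]ˣ,
      Units.map (PadicInt.Coe.ringHom (p := p)).toMonoidHom u ∉ normRange ℚ_[p] E := by
  obtain ⟨x, hx⟩ := exists_not_mem_normRange_layer p hζ E hfix hp2 hn
  refine ⟨unitPart x, fun hu => hx ?_⟩
  have hE := layer_le_adjoin (K := ℚ_[p]) p hζ E
    (by haveI := isGalois_padicAlgCl p; exact hfix)
  have hpN : (pUnit : ℚ_[p]ˣ) ∈ normRange ℚ_[p] E := pUnit_mem_normRange p hp2 hζ E hE
  have hx' : x = Units.map (PadicInt.Coe.ringHom (p := p)).toMonoidHom (unitPart x) *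
      pUnit ^ ((x : ℚ_[p]).valuation) := by
    apply Units.ext
    rw [Units.val_mul, Units.val_zpow_eq_zpow_val]
    exact eq_unitPart_mul x
  rw [hx']
  exact Subgroup.mul_mem _ hu (Subgroup.zpow_mem _ hpN _)

end Wild

end Fermat.Agent.S55.CycloRecip78
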