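/-
S55 / 34-CYCLO-RECIP, part 34-P (helper78): norms from a cyclic layer as CYCLIC PRODUCTS
`∏_{i<d} s^i(b)` (the shape of `GlobalInv91.partialNorm`), and the wild case (R3) in that shape:
`x ∈ ℚ_pˣ` is a cyclic product from the degree-`p^n` layer iff `fakeSymbol n x = 1`.
-/
import Mathlib
import Fermat.Agent.S55.CycloRecip78.Index

set_option autoImplicit false
set_option linter.style.haveILetI false

namespace Fermat.Agent.S55.CycloRecip78

open IntermediateField

section Generic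

variable {K Ω : Type*} [Field K] [Field Ω] [Algebra K Ω] [IsGalois K Ω]

/-- an intermediate field with normal fixing subgroup is normal. -/
theorem normal_of_fixingSubgroup_normal (E : IntermediateField K Ω)
    (hN : E.fixingSubgroup.Normal) : Normal K E := by
  rw [IntermediateField.normal_iff_forall_map_le']
  intro σ x hx
  obtain ⟨y, hy, rfl⟩ := hx
  rw [← InfiniteGalois.fixedField_fixingSubgroup E, IntermediateField.mem_fixedField_iff]
  intro τ hτ
  have hconj : σ⁻¹ * τ * σ ∈ E.fixingSubgroup := by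
    have := hN.conj_mem τ hτ σ⁻¹
    simpa using this
  have h1 := (IntermediateField.mem_fixingSubgroup_iff E _).1 hconj y hy
  have h2 : σ ((σ⁻¹ * τ * σ) y) = τ (σ y) := by
    rw [AlgEquiv.mul_apply, AlgEquiv.mul_apply, ← AlgEquiv.mul_apply σ σ⁻¹, mul_inv_cancel,
      AlgEquiv.one_apply]
  rw [h1] at h2
  exact h2.symm

variable {d : ℕ} [NeZero d] (χ : (Ω ≃ₐ[K] Ω) →* Multiplicative (ZMod d))
  (E : IntermediateField K Ω) (hE : E.fixingSubgroup = χ.ker) (s : Ω ≃ₐ[K] Ω)
  (hs : χ s = Multiplicative.ofAdd 1)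

omit [IsGalois K Ω] in
include hs in
lemma chi_surjective_of_gen : Function.Surjective χ := by
  intro c
  refine ⟨s ^ (Multiplicative.toAdd c).val, ?_⟩
  rw [map_pow, hs, ← ofAdd_nsmul, nsmul_eq_mul, mul_one, ZMod.natCast_zmod_val]
  rfl

omit [IsGalois K Ω] [NeZero d] in
include hs in
lemma pow_mem_ker_iff (k : ℕ) : s ^ k ∈ χ.ker ↔ d ∣ k := by
  rw [MonoidHom.mem_ker, map_pow, hs, ← ofAdd_nsmul, nsmul_eq_mul, mul_one,
    ← (ZMod.natCast_eq_zero_iff k d)]
  exact Iff.rfl

include hE hs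

lemma finrank_eq_of_ker : Module.finrank K E = d := by
  rw [IntermediateField.finrank_eq_fixingSubgroup_index, hE, Subgroup.index_ker,
    MonoidHom.range_eq_top.2 (chi_surjective_of_gen χ s hs)]
  simp [Nat.card_eq_fintype_card, ZMod.card]

lemma finiteDimensional_of_ker : FiniteDimensional K E := by
  apply Module.finite_of_finrank_pos
  rw [finrank_eq_of_ker χ E hE s hs]
  exact Nat.pos_of_ne_zero (NeZero.ne d)

omit [NeZero d] hs in
lemma normal_of_ker : Normal K E := by
  apply normal_of_fixingSubgroup_normal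
  rw [hE]
  infer_instance

/-- **norm = cyclic product.**  If `E` is the fixed field of the kernel of a character
`χ : Gal(Ω/K) → ℤ/d` and `χ s = 1`, then `N_{E/K} y = ∏_{i<d} s^i(y)`. -/
theorem algebraMap_norm_eq_prod_pow (y : E) :
    algebraMap K Ω (Algebra.norm K y) = ∏ i ∈ Finset.range d, (s ^ i) (y : Ω) := by
  classical
  haveI := finiteDimensional_of_ker χ E hE s hs
  haveI := normal_of_ker χ E hE
  haveI : IsGalois K E := ⟨⟩
  set r : E ≃ₐ[K] E := AlgEquiv.restrictNormalHom E s with hr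
  have hrpow : ∀ i : ℕ, ∀ z : E, (((r ^ i) z : E) : Ω) = (s ^ i) (z : Ω) := by
    intro i z
    rw [hr, ← map_pow]
    exact AlgEquiv.restrictNormal_commutes (s ^ i) E z
  -- the powers `r^i`, `i < d`, are pairwise distinct
  have hkey : ∀ i j : ℕ, i ≤ j → j < d → r ^ i = r ^ j → i = j := by
    intro i j hle hj hij
    have h1 : r ^ (j - i) = 1 := by
      have : r ^ j = r ^ (j - i) * r ^ i := by rw [← pow_add, Nat.sub_add_cancel hle]
      rw [this] at hij
      exact (mul_eq_right.mp hij.symm)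
    have h2 : s ^ (j - i) ∈ E.fixingSubgroup := by
      rw [← IntermediateField.restrictNormalHom_ker E, MonoidHom.mem_ker, map_pow]
      exact h1
    rw [hE, pow_mem_ker_iff χ s hs] at h2
    have h3 : j - i < d := by omega
    have h4 : j - i = 0 := Nat.eq_zero_of_dvd_of_lt h2 h3
    omega
  have hinj : Set.InjOn (fun i : ℕ => r ^ i) (Finset.range d : Set ℕ) := by
    intro i hi j hj hij
    simp only [Finset.coe_range, Set.mem_Iio] at hi hj
    rcases le_total i j with hle | hle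
    · exact hkey i j hle hj hij
    · exact (hkey j i hle hi hij.symm).symm
  have hcard : Fintype.card (E ≃ₐ[K] E) = d := by
    rw [← Nat.card_eq_fintype_card, IsGalois.card_aut_eq_finrank, finrank_eq_of_ker χ E hE s hs]
  have himage : (Finset.range d).image (fun i : ℕ => r ^ i) = Finset.univ := by
    apply Finset.eq_univ_of_card
    rw [Finset.card_image_of_injOn hinj, Finset.card_range, hcard]
  have h1 : algebraMap K Ω (Algebra.norm K y) =
      algebraMap E Ω (algebraMap K E (Algebra.norm K y)) := rfl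
  rw [h1, Algebra.norm_eq_prod_automorphisms, ← himage, Finset.prod_image hinj, map_prod]
  refine Finset.prod_congr rfl (fun i _ => ?_)
  exact hrpow i y

/-- a cyclic product of an element fixed by `ker χ` is a norm from `E`. -/
theorem mem_normRange_of_prod_pow (x : Kˣ) (b : Ω) (hb : ∀ τ : Ω ≃ₐ[K] Ω, χ τ = 1 → τ b = b)
    (hx : ∏ i ∈ Finset.range d, (s ^ i) b = algebraMap K Ω x) : x ∈ normRange K E := by
  haveI := finiteDimensional_of_ker χ E hE s hs
  have hbE : b ∈ E := by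
    rw [← InfiniteGalois.fixedField_fixingSubgroup E, IntermediateField.mem_fixedField_iff]
    intro τ hτ
    rw [hE] at hτ
    exact hb τ hτ
  apply mem_normRange_of_norm_eq (y := (⟨b, hbE⟩ : E))
  apply FaithfulSMul.algebraMap_injective K Ω
  rw [algebraMap_norm_eq_prod_pow χ E hE s hs ⟨b, hbE⟩]
  exact hx

/-- every norm from `E` is a cyclic product of a unit fixed by `ker χ`. -/
theorem exists_prod_pow_of_mem_normRange (x : Kˣ) (hx : x ∈ normRange K E) :
    ∃ b : Ωˣ, (∀ τ : Ω ≃ₐ[K] Ω, χ τ = 1 → τ (b : Ω) = b) ∧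
      ∏ i ∈ Finset.range d, (s ^ i) (b : Ω) = algebraMap K Ω x := by
  obtain ⟨y, hy⟩ := mem_normRange_iff.1 hx
  refine ⟨Units.map (algebraMap E Ω : E →* Ω) y, fun τ hτ => ?_, ?_⟩
  · have hτ' : τ ∈ E.fixingSubgroup := by rw [hE]; exact hτ
    exact (IntermediateField.mem_fixingSubgroup_iff E τ).1 hτ' _ (y : E).2
  · rw [← hy]
    exact (algebraMap_norm_eq_prod_pow χ E hE s hs (y : E)).symm

end Generic

section Padic

open Fermat.Agent.S55.CycloRecip90 Fermat.Agent.S55.LocField17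

variable (p : ℕ) [hp : Fact p.Prime] {n : ℕ} {ζ : PadicAlgCl p}
  (hζ : IsPrimitiveRoot ζ (p ^ (n + 1)))
  (χ : (PadicAlgCl p ≃ₐ[ℚ_[p]] PadicAlgCl p) →* Multiplicative (ZMod (p ^ n)))
  (hker : ∀ τ, χ τ = 1 ↔ (chi (K := ℚ_[p]) p hζ τ) ^ (p - 1) = 1)
  (s : PadicAlgCl p ≃ₐ[ℚ_[p]] PadicAlgCl p) (hs : χ s = Multiplicative.ofAdd 1)

include hker hs

/-- **(R3) in `partialNorm` shape.**  Let `χ` be a character of `Gal(PadicAlgCl p/ℚ_p)` onto `ℤ/p^n`
whose kernel is `{τ | χ_cyc(τ)^(p-1) = 1}` (i.e. `χ` cuts out the degree-`p^n` layer of the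
cyclotomic `ℤ_p`-tower) and `χ s = 1`.  Then `x ∈ ℚ_pˣ` is a cyclic product `∏_{i<p^n} s^i(b)` with
`b` fixed by `ker χ` iff `fakeSymbol n x = 1`. -/
theorem exists_prod_pow_iff_fakeSymbol (hp2 : p ≠ 2) (x : ℚ_[p]ˣ) :
    (∃ b : (PadicAlgCl p)ˣ, (∀ τ, χ τ = 1 → τ (b : PadicAlgCl p) = b) ∧
      ∏ i ∈ Finset.range (p ^ n), (s ^ i) (b : PadicAlgCl p) =
        algebraMap ℚ_[p] (PadicAlgCl p) x) ↔ fakeSymbol (p := p) n x = 1 := by
  haveI := isGalois_padicAlgCl p
  set E : LF p := IntermediateField.fixedField χ.ker with hEdef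
  have hker' : χ.ker = (psi (K := ℚ_[p]) p hζ).ker := by
    ext τ
    rw [MonoidHom.mem_ker, hker τ, mem_ker_psi_iff]
  have hfix : ∀ τ, τ ∈ E.fixingSubgroup ↔ (chi (K := ℚ_[p]) p hζ τ) ^ (p - 1) = 1 := by
    intro τ
    rw [hEdef, hker']
    exact mem_fixingSubgroup_wildLayer_iff p hζ τ
  have hE : E.fixingSubgroup = χ.ker := by
    ext τ
    rw [hfix τ, MonoidHom.mem_ker, hker τ]
  rw [← mem_normRange_layer_iff p hζ E hfix hp2 x]
  constructor
  · rintro ⟨b, hb, hx⟩
    exact mem_normRange_of_prod_pow χ E hE s hs x b hb hx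
  · intro hx
    exact exists_prod_pow_of_mem_normRange χ E hE s hs x hx

/-- **(H2)**: `p` is a cyclic product from the layer. -/
theorem exists_prod_pow_eq_prime (hp2 : p ≠ 2) :
    ∃ b : (PadicAlgCl p)ˣ, (∀ τ, χ τ = 1 → τ (b : PadicAlgCl p) = b) ∧
      ∏ i ∈ Finset.range (p ^ n), (s ^ i) (b : PadicAlgCl p) = (p : PadicAlgCl p) := by
  have h := (exists_prod_pow_iff_fakeSymbol p hζ χ hker s hs hp2 pUnit).2 (by
    rw [fakeSymbol_apply]
    have : unitPart (pUnit : ℚ_[p]ˣ) = 1 := by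
      apply Units.ext
      apply Subtype.ext
      rw [coe_unitPart]
      simp [pUnit]
    rw [this, map_one, one_pow, inv_one])
  obtain ⟨b, hb, hx⟩ := h
  refine ⟨b, hb, ?_⟩
  rw [hx]
  simp [pUnit]

/-- **(H4)**: for `n ≥ 1` some unit of `ℤ_p` is NOT a cyclic product from the layer. -/
theorem exists_unit_not_prod_pow (hp2 : p ≠ 2) (hn : n ≠ 0) :
    ∃ u : ℤ_[p]ˣ, ¬ ∃ b : (PadicAlgCl p)ˣ, (∀ τ, χ τ = 1 → τ (b : PadicAlgCl p) = b) ∧
      ∏ i ∈ Finset.range (p ^ n), (s ^ i) (b : PadicAlgCl p) =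
        algebraMap ℚ_[p] (PadicAlgCl p) ((u : ℤ_[p]) : ℚ_[p]) := by
  haveI : IsCyclic (ZMod (p ^ (n + 1)))ˣ := ZMod.isCyclic_units_of_prime_pow p hp.out hp2 _
  -- some unit has nontrivial symbol, because the index of the kernel is `p^n > 1`
  have hidx := index_ker_fakeSymbol (p := p) hp2 n
  have hne : (fakeSymbol (p := p) n).ker ≠ ⊤ := by
    intro htop
    rw [htop, Subgroup.index_top] at hidx
    have : 1 < p ^ n := Nat.one_lt_pow hn hp.out.one_lt
    omega
  obtain ⟨x, hx⟩ : ∃ x : ℚ_[p]ˣ, fakeSymbol (p := p) n x ≠ 1 := by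
    by_contra hall
    push Not at hall
    exact hne (by ext x; simp [MonoidHom.mem_ker, hall x])
  refine ⟨unitPart x, fun hex => hx ?_⟩
  have h1 := (exists_prod_pow_iff_fakeSymbol p hζ χ hker s hs hp2
    (Units.map (PadicInt.Coe.ringHom (p := p)).toMonoidHom (unitPart x))).1 hex
  rw [fakeSymbol_apply, unitPart_coe_unit] at h1
  rw [fakeSymbol_apply]
  exact h1

end Padic

end Fermat.Agent.S55.CycloRecip78
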