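/-
S55 / 34-CYCLO-RECIP, part 34-P (helper78): the SEAM between the local wild package
(`CycloRecip78`, character `chi p hζ` of `Gal(PadicAlgCl p/ℚ_p)`) and the global tower character
`CycloGlobal87.towerChar p hp2 n : G_ℚ →* Multiplicative (ℤ/p^n)` of helper87, restricted along
`localGaloisToGlobal p`.  Output: (H2) and (H4) of helper37's step (I) for the character
`locTowerChar p hp2 n = towerChar ∘ loc_p`, with NO hypothesis left.
-/
import Mathlib
import Fermat.Agent.S55.CycloGlobal87.Tower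
import Fermat.Agent.S55.CycloRecip78.NormProd

set_option autoImplicit false

namespace Fermat.Agent.S55.CycloRecip78

open Fermat.Agent.S55.CycloTower46.Char Fermat.Agent.S55.CycloGlobal87
  Fermat.Agent.S55.CycloRecip90

variable (p : ℕ) [hp : Fact p.Prime]

/-- the local Galois group at `p`. -/
abbrev GalP : Type := PadicAlgCl p ≃ₐ[ℚ_[p]] PadicAlgCl p

/-- `chi p hζ` IS helper46's local cyclotomic character `cycChar ∘ localGaloisToGlobal`. -/
theorem chi_eq_localCycChar {n : ℕ} {ζ : PadicAlgCl p} (hζ : IsPrimitiveRoot ζ (p ^ (n + 1)))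
    (τ : GalP p) : chi (K := ℚ_[p]) p hζ τ = localCycChar p (p ^ (n + 1)) τ := by
  apply Units.ext
  exact localCycChar_unique_of_isPrimitiveRoot p τ _ hζ (chi_spec p hζ τ)

/-- a primitive `p^(n+1)`-th root of unity of `PadicAlgCl p`. -/
theorem exists_isPrimitiveRoot_padicAlgCl (n : ℕ) :
    ∃ ζ : PadicAlgCl p, IsPrimitiveRoot ζ (p ^ (n + 1)) := by
  obtain ⟨ζ₀, hζ₀⟩ := exists_isPrimitiveRoot_Qb (p ^ (n + 1))
  exact ⟨padicEmbedding p ζ₀,
    hζ₀.map_of_injective (Fermat.Agent.S55.ProfinLoc80.padicEmbedding_injective p)⟩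

variable (hp2 : p ≠ 2) (n : ℕ)

/-- **the local tower character at `p`**: `towerChar p hp2 n ∘ localGaloisToGlobal p`. -/
noncomputable def locTowerChar : GalP p →* Multiplicative (ZMod (p ^ n)) :=
  (towerChar p hp2 n).comp (localGaloisToGlobal p)

theorem locTowerChar_apply (τ : GalP p) :
    locTowerChar p hp2 n τ = towerChar p hp2 n (localGaloisToGlobal p τ) := rfl

/-- **the seam (`hker`)**: `locTowerChar τ = 1 ↔ χ_cyc(τ)^(p-1) = 1`. -/
theorem locTowerChar_eq_one_iff {ζ : PadicAlgCl p} (hζ : IsPrimitiveRoot ζ (p ^ (n + 1)))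
    (τ : GalP p) :
    locTowerChar p hp2 n τ = 1 ↔ (chi (K := ℚ_[p]) p hζ τ) ^ (p - 1) = 1 := by
  rw [locTowerChar_apply, ← MonoidHom.mem_ker, ker_towerChar, MonoidHom.mem_ker, gam_apply,
    chi_eq_localCycChar, localCycChar_apply]

/-- the local tower character at `p` is onto (total ramification at `p`). -/
theorem locTowerChar_surjective : Function.Surjective (locTowerChar p hp2 n) := by
  intro c
  -- lift `expG c ∈ Γ_n` to `(ℤ/p^(n+1))ˣ`, then to `G_p`
  obtain ⟨y, hy⟩ : ∃ y : (ZMod (p ^ (n + 1)))ˣ, y ^ (p - 1) =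
      ((expG p hp2 n c : Gamma p n) : (ZMod (p ^ (n + 1)))ˣ) := (expG p hp2 n c).2
  obtain ⟨τ, hτ⟩ := localCycChar_surjective_prime_pow p n y
  refine ⟨τ, ?_⟩
  rw [locTowerChar_apply, towerChar_apply]
  have h1 : gamG p n (localGaloisToGlobal p τ) = expG p hp2 n c := by
    apply Subtype.ext
    rw [coe_gamG, gam_apply, ← localCycChar_apply, hτ, hy]
  rw [h1, dlog_expG]

/-- a generator: some `s ∈ G_p` with `locTowerChar s = 1 ∈ ℤ/p^n`. -/
theorem exists_locTowerChar_eq_one :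
    ∃ s : GalP p, locTowerChar p hp2 n s = Multiplicative.ofAdd 1 :=
  locTowerChar_surjective p hp2 n _

variable (s : GalP p) (hs : locTowerChar p hp2 n s = Multiplicative.ofAdd 1)

include hs

/-- **(R3), model form**: `x ∈ ℚ_pˣ` is a cyclic product `∏_{i<p^n} s^i(b)` with `b` fixed by
`ker (locTowerChar)` iff `fakeSymbol n x = 1`. -/
theorem exists_prod_pow_iff_fakeSymbol_tower (x : ℚ_[p]ˣ) :
    (∃ b : (PadicAlgCl p)ˣ, (∀ τ, locTowerChar p hp2 n τ = 1 → τ (b : PadicAlgCl p) = b) ∧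
      ∏ i ∈ Finset.range (p ^ n), (s ^ i) (b : PadicAlgCl p) =
        algebraMap ℚ_[p] (PadicAlgCl p) x) ↔ fakeSymbol (p := p) n x = 1 := by
  obtain ⟨ζ, hζ⟩ := exists_isPrimitiveRoot_padicAlgCl p n
  exact exists_prod_pow_iff_fakeSymbol p hζ (locTowerChar p hp2 n)
    (locTowerChar_eq_one_iff p hp2 n hζ) s hs hp2 x

/-- **(H2), model form**: `p` is a cyclic product from the local layer of the tower. -/
theorem exists_prod_pow_eq_prime_tower :
    ∃ b : (PadicAlgCl p)ˣ, (∀ τ, locTowerChar p hp2 n τ = 1 → τ (b : PadicAlgCl p) = b) ∧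
      ∏ i ∈ Finset.range (p ^ n), (s ^ i) (b : PadicAlgCl p) = (p : PadicAlgCl p) := by
  obtain ⟨ζ, hζ⟩ := exists_isPrimitiveRoot_padicAlgCl p n
  exact exists_prod_pow_eq_prime p hζ (locTowerChar p hp2 n)
    (locTowerChar_eq_one_iff p hp2 n hζ) s hs hp2

/-- **(H4), model form**: for `n ≥ 1` some unit of `ℤ_p` is NOT a cyclic product from the local
layer of the tower. -/
theorem exists_unit_not_prod_pow_tower (hn : n ≠ 0) :
    ∃ u : ℤ_[p]ˣ, ¬ ∃ b : (PadicAlgCl p)ˣ,
      (∀ τ, locTowerChar p hp2 n τ = 1 → τ (b : PadicAlgCl p) = b) ∧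
      ∏ i ∈ Finset.range (p ^ n), (s ^ i) (b : PadicAlgCl p) =
        algebraMap ℚ_[p] (PadicAlgCl p) ((u : ℤ_[p]) : ℚ_[p]) := by
  obtain ⟨ζ, hζ⟩ := exists_isPrimitiveRoot_padicAlgCl p n
  exact exists_unit_not_prod_pow p hζ (locTowerChar p hp2 n)
    (locTowerChar_eq_one_iff p hp2 n hζ) s hs hp2 hn

end Fermat.Agent.S55.CycloRecip78
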