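/-
S55 / 34-CYCLO-RECIP, part 34-P (helper78): the wild case at FINITE LEVEL.  `M/ℚ_p` a finite
(or any) normal subextension of `PadicAlgCl p`, `χM` a character of `Gal(M/ℚ_p)` which inflates to
the local tower character `locTowerChar p hp2 n`; then (R3)/(H2)/(H4) hold inside `M`, and the carry
cocycle `δχM ∪ p` of `GlobalInv91` is a coboundary in `Rep.ofAlgebraAutOnUnits ℚ_[p] M`.
-/
import Mathlib
import Fermat.Agent.S55.CycloRecip78.Seam

set_option autoImplicit false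
set_option linter.style.haveILetI false

namespace Fermat.Agent.S55.CycloRecip78

open Fermat.Agent.S55.CycloRecip90 Fermat.Agent.S55.LocField17 Fermat.Agent.S55.GlobalInv91

variable (p : ℕ) [hp : Fact p.Prime] (hp2 : p ≠ 2) (n : ℕ)
  (M : LF p) [Normal ℚ_[p] M]
  (χM : (M ≃ₐ[ℚ_[p]] M) →* Multiplicative (ZMod (p ^ n)))
  (hcomp : ∀ τ : GalP p, χM (AlgEquiv.restrictNormalHom M τ) = locTowerChar p hp2 n τ)
  (sM : M ≃ₐ[ℚ_[p]] M) (hsM : χM sM = Multiplicative.ofAdd 1)

include hcomp hsM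

/-- **(R3) at finite level.** -/
theorem exists_prod_pow_iff_fakeSymbol_level (x : ℚ_[p]ˣ) :
    (∃ b : Mˣ, (∀ g, χM g = 1 → g (b : M) = b) ∧
      ∏ i ∈ Finset.range (p ^ n), (sM ^ i) (b : M) = algebraMap ℚ_[p] M x) ↔
      fakeSymbol (p := p) n x = 1 := by
  haveI := isGalois_padicAlgCl p
  obtain ⟨s, hs⟩ := AlgEquiv.restrictNormalHom_surjective (PadicAlgCl p) sM
  have hs1 : locTowerChar p hp2 n s = Multiplicative.ofAdd 1 := by rw [← hcomp, hs, hsM]
  have hpow : ∀ (i : ℕ) (z : M), (((sM ^ i) z : M) : PadicAlgCl p) = (s ^ i) (z : PadicAlgCl p) := by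
    intro i z
    rw [← hs, ← map_pow]
    exact AlgEquiv.restrictNormal_commutes (s ^ i) M z
  rw [← exists_prod_pow_iff_fakeSymbol_tower p hp2 n s hs1 x]
  constructor
  · rintro ⟨b, hb, hx⟩
    refine ⟨Units.map (algebraMap M (PadicAlgCl p) : M →* PadicAlgCl p) b, fun τ hτ => ?_, ?_⟩
    · have h1 : χM (AlgEquiv.restrictNormalHom M τ) = 1 := by rw [hcomp, hτ]
      have h2 := hb _ h1
      have h3 := AlgEquiv.restrictNormal_commutes τ M (b : M)
      rw [Units.coe_map, MonoidHom.coe_coe, ← h3]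
      exact congrArg (algebraMap M (PadicAlgCl p)) h2
    · have h4 := congrArg (algebraMap M (PadicAlgCl p)) hx
      rw [map_prod] at h4
      rw [Units.coe_map, MonoidHom.coe_coe]
      calc ∏ i ∈ Finset.range (p ^ n), (s ^ i) (algebraMap M (PadicAlgCl p) (b : M))
          = ∏ i ∈ Finset.range (p ^ n), algebraMap M (PadicAlgCl p) ((sM ^ i) (b : M)) :=
            Finset.prod_congr rfl (fun i _ => (hpow i (b : M)).symm)
        _ = algebraMap M (PadicAlgCl p) (algebraMap ℚ_[p] M x) := h4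
        _ = algebraMap ℚ_[p] (PadicAlgCl p) x := rfl
  · rintro ⟨b, hb, hx⟩
    -- `b` lies in `M`
    have hmem : ∀ v : (PadicAlgCl p)ˣ, (∀ τ, locTowerChar p hp2 n τ = 1 → τ (v : PadicAlgCl p) = v) →
        (v : PadicAlgCl p) ∈ M := by
      intro v hv
      rw [← InfiniteGalois.fixedField_fixingSubgroup M, IntermediateField.mem_fixedField_iff]
      intro τ hτ
      apply hv
      rw [← hcomp]
      have : τ ∈ (AlgEquiv.restrictNormalHom (F := ℚ_[p]) (K₁ := PadicAlgCl p) M).ker := by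
        rw [IntermediateField.restrictNormalHom_ker]; exact hτ
      rw [MonoidHom.mem_ker.1 this, map_one]
    have hb' : ∀ τ, locTowerChar p hp2 n τ = 1 →
        τ ((b⁻¹ : (PadicAlgCl p)ˣ) : PadicAlgCl p) = ((b⁻¹ : (PadicAlgCl p)ˣ) : PadicAlgCl p) := by
      intro τ hτ
      rw [Units.val_inv_eq_inv_val, map_inv₀, hb τ hτ]
    let bM : Mˣ := ⟨⟨b, hmem b hb⟩, ⟨(b⁻¹ : (PadicAlgCl p)ˣ), hmem _ hb'⟩,
      by apply Subtype.ext; simp, by apply Subtype.ext; simp⟩
    have hbM : ((bM : M) : PadicAlgCl p) = b := rfl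
    refine ⟨bM, fun g hg => ?_, ?_⟩
    · obtain ⟨τ, rfl⟩ := AlgEquiv.restrictNormalHom_surjective (PadicAlgCl p) g
      rw [hcomp] at hg
      apply Subtype.ext
      have h3 := AlgEquiv.restrictNormal_commutes τ M (bM : M)
      exact h3.trans (hb τ hg)
    · apply Subtype.ext
      have : ((∏ i ∈ Finset.range (p ^ n), (sM ^ i) (bM : M) : M) : PadicAlgCl p) =
          ∏ i ∈ Finset.range (p ^ n), (((sM ^ i) (bM : M) : M) : PadicAlgCl p) :=
        map_prod (algebraMap M (PadicAlgCl p)) _ _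
      rw [this]
      calc ∏ i ∈ Finset.range (p ^ n), (((sM ^ i) (bM : M) : M) : PadicAlgCl p)
          = ∏ i ∈ Finset.range (p ^ n), (s ^ i) (b : PadicAlgCl p) :=
            Finset.prod_congr rfl (fun i _ => hpow i (bM : M))
        _ = algebraMap ℚ_[p] (PadicAlgCl p) x := hx

/-- **(H2) at finite level**: `p` is a cyclic product inside `M`. -/
theorem exists_prod_pow_eq_prime_level :
    ∃ b : Mˣ, (∀ g, χM g = 1 → g (b : M) = b) ∧
      ∏ i ∈ Finset.range (p ^ n), (sM ^ i) (b : M) = (p : M) := by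
  have h := (exists_prod_pow_iff_fakeSymbol_level p hp2 n M χM hcomp sM hsM pUnit).2 (by
    rw [fakeSymbol_apply]
    have : unitPart (pUnit : ℚ_[p]ˣ) = 1 := by
      apply Units.ext
      apply Subtype.ext
      rw [coe_unitPart]
      simp [pUnit]
    rw [this, map_one, one_pow, inv_one])
  obtain ⟨b, hb, hx⟩ := h
  refine ⟨b, hb, ?_⟩
  rw [hx]
  simp [pUnit]

/-- **(H4) at finite level**: for `n ≥ 1` some unit of `ℤ_p` is not a cyclic product inside `M`. -/
theorem exists_unit_not_prod_pow_level (hn : n ≠ 0) :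
    ∃ u : ℤ_[p]ˣ, ¬ ∃ b : Mˣ, (∀ g, χM g = 1 → g (b : M) = b) ∧
      ∏ i ∈ Finset.range (p ^ n), (sM ^ i) (b : M) = algebraMap ℚ_[p] M ((u : ℤ_[p]) : ℚ_[p]) := by
  haveI := isGalois_padicAlgCl p
  obtain ⟨s, hs⟩ := AlgEquiv.restrictNormalHom_surjective (PadicAlgCl p) sM
  have hs1 : locTowerChar p hp2 n s = Multiplicative.ofAdd 1 := by rw [← hcomp, hs, hsM]
  obtain ⟨u, hu⟩ := exists_unit_not_prod_pow_tower p hp2 n s hs1 hn
  refine ⟨u, fun hex => hu ?_⟩
  have h1 := (exists_prod_pow_iff_fakeSymbol_level p hp2 n M χM hcomp sM hsM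
    (Units.map (PadicInt.Coe.ringHom (p := p)).toMonoidHom u)).1 hex
  exact (exists_prod_pow_iff_fakeSymbol_tower p hp2 n s hs1
    (Units.map (PadicInt.Coe.ringHom (p := p)).toMonoidHom u)).2 h1

omit [Normal ℚ_[p] ↥M] hcomp hsM in
/-- `partialNorm` of `GlobalInv91` in `Rep.ofAlgebraAutOnUnits`, multiplicatively. -/
lemma partialNorm_ofMul (b : Mˣ) (m : ℕ) :
    partialNorm (Rep.ofAlgebraAutOnUnits ℚ_[p] M) sM (Additive.ofMul b) m =
      Additive.ofMul (∏ i ∈ Finset.range m, Units.map ((sM ^ i : M ≃ₐ[ℚ_[p]] M) : M →* M) b) := by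
  induction m with
  | zero => simp [partialNorm]; rfl
  | succ m ih =>
    have h1 : partialNorm (Rep.ofAlgebraAutOnUnits ℚ_[p] M) sM (Additive.ofMul b) (m + 1) =
        partialNorm (Rep.ofAlgebraAutOnUnits ℚ_[p] M) sM (Additive.ofMul b) m +
          (Rep.ofAlgebraAutOnUnits ℚ_[p] M).ρ (sM ^ m) (Additive.ofMul b) :=
      Finset.sum_range_succ _ _
    rw [h1, ih, Finset.prod_range_succ]
    rfl

/-- **(H2) in `Rep` language**: the carry cocycle `δχM ∪ p` of `GlobalInv91` is a coboundary in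
`Mˣ`. -/
theorem carry_prime_isCob₂ :
    IsCob₂ (Rep.ofAlgebraAutOnUnits ℚ_[p] M)
      (carry (Rep.ofAlgebraAutOnUnits ℚ_[p] M) χM
        (Additive.ofMul (Units.map (algebraMap ℚ_[p] M : ℚ_[p] →* M) pUnit))) := by
  obtain ⟨b, hb, hx⟩ := exists_prod_pow_eq_prime_level p hp2 n M χM hcomp sM hsM
  have hs : chiVal χM sM = 1 := by rw [chiVal, hsM]; rfl
  have hb' : ∀ z : M ≃ₐ[ℚ_[p]] M, χM z = 1 →
      (Rep.ofAlgebraAutOnUnits ℚ_[p] M).ρ z (Additive.ofMul b) = Additive.ofMul b := by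
    intro z hz
    show Additive.ofMul (Units.map ((z : M ≃ₐ[ℚ_[p]] M) : M →* M) b) = Additive.ofMul b
    congr 1
    apply Units.ext
    exact hb z hz
  have h := carry_isCob₂_of_norm (C := Rep.ofAlgebraAutOnUnits ℚ_[p] M) (χ := χM) (s := sM)
    (b := Additive.ofMul b) hs hb'
  have hnorm : partialNorm (Rep.ofAlgebraAutOnUnits ℚ_[p] M) sM (Additive.ofMul b) (p ^ n) =
      Additive.ofMul (Units.map (algebraMap ℚ_[p] M : ℚ_[p] →* M) pUnit) := by
    rw [partialNorm_ofMul]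
    congr 1
    apply Units.ext
    rw [Units.coe_prod]
    have h2 : ∀ i : ℕ, ((Units.map ((sM ^ i : M ≃ₐ[ℚ_[p]] M) : M →* M) b : Mˣ) : M) =
        (sM ^ i) (b : M) := fun i => rfl
    simp only [h2]
    rw [hx]
    simp [pUnit]
  rw [hnorm] at h
  exact h

omit hsM in
/-- a generator of the image of `χM` exists (total ramification at `p`). -/
theorem exists_gen_level : ∃ g : M ≃ₐ[ℚ_[p]] M, χM g = Multiplicative.ofAdd 1 := by
  obtain ⟨τ, hτ⟩ := exists_locTowerChar_eq_one p hp2 n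
  exact ⟨AlgEquiv.restrictNormalHom M τ, by rw [hcomp, hτ]⟩

omit hsM in
/-- **(H2) in `Rep` language, no generator needed.** -/
theorem carry_prime_isCob₂' :
    IsCob₂ (Rep.ofAlgebraAutOnUnits ℚ_[p] M)
      (carry (Rep.ofAlgebraAutOnUnits ℚ_[p] M) χM
        (Additive.ofMul (Units.map (algebraMap ℚ_[p] M : ℚ_[p] →* M) pUnit))) := by
  obtain ⟨g, hg⟩ := exists_gen_level p hp2 n M χM hcomp
  exact carry_prime_isCob₂ p hp2 n M χM hcomp g hg

end Fermat.Agent.S55.CycloRecip78
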