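/-
S55 / 34-CYCLO-RECIP, part 34-P (helper78): (H4) in `Rep` language at finite level: for `n ≥ 1`
some unit `u` of `ℤ_p` has a carry cocycle `δχM ∪ u` which is NOT a coboundary in `Mˣ`
(`M/ℚ_p` finite normal inside `PadicAlgCl p`, `χM` inflating to the local tower character).
Inputs: `FiniteLevel.lean` (H4 multiplicative), `GlobalInv91.exists_norm_of_carry_isCob₂`,
Hilbert 90 for subgroups (`GalAdapt49.Res.isMulCoboundary₁_of_subgroup`).
-/
import Mathlib
import Fermat.Agent.S55.CycloRecip78.FiniteLevel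
import Fermat.Agent.S55.GalAdapt49.Res

set_option autoImplicit false
set_option linter.style.haveILetI false

namespace Fermat.Agent.S55.CycloRecip78

open Fermat.Agent.S55.CycloRecip90 Fermat.Agent.S55.LocField17 Fermat.Agent.S55.GlobalInv91
  groupCohomology

section Hilbert90

variable (p : ℕ) [hp : Fact p.Prime] (M : LF p) [FiniteDimensional ℚ_[p] M]

/-- Hilbert 90 for a subgroup of `Gal(M/ℚ_p)` in the elementary additive form required by
`GlobalInv91.exists_norm_of_carry_isCob₂`. -/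
theorem hilbert90_elementary (H : Subgroup (M ≃ₐ[ℚ_[p]] M))
    (f : H → (Rep.ofAlgebraAutOnUnits ℚ_[p] M))
    (hf : ∀ z w : H, f (z * w) =
      (Rep.ofAlgebraAutOnUnits ℚ_[p] M).ρ (z : M ≃ₐ[ℚ_[p]] M) (f w) + f z) :
    ∃ y : (Rep.ofAlgebraAutOnUnits ℚ_[p] M), ∀ z : H,
      f z = (Rep.ofAlgebraAutOnUnits ℚ_[p] M).ρ (z : M ≃ₐ[ℚ_[p]] M) y - y := by
  let f' : H → Mˣ := fun z => Additive.toMul (f z : Additive Mˣ)
  have hf' : IsMulCocycle₁ f' := by
    intro g h
    have := hf g h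
    exact congrArg Additive.toMul this
  obtain ⟨x, hx⟩ := Fermat.Agent.S55.GalAdapt49.Res.isMulCoboundary₁_of_subgroup H f' hf'
  refine ⟨Additive.ofMul x, fun z => ?_⟩
  have := hx z
  exact (congrArg Additive.ofMul this).symm

end Hilbert90

variable (p : ℕ) [hp : Fact p.Prime] (hp2 : p ≠ 2) (n : ℕ)
  (M : LF p) [Normal ℚ_[p] M] [FiniteDimensional ℚ_[p] M]
  (χM : (M ≃ₐ[ℚ_[p]] M) →* Multiplicative (ZMod (p ^ n)))
  (hcomp : ∀ τ : GalP p, χM (AlgEquiv.restrictNormalHom M τ) = locTowerChar p hp2 n τ)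

include hcomp

/-- **(H4) in `Rep` language.**  For `n ≥ 1` there is a unit `u ∈ ℤ_pˣ` whose carry cocycle
`δχM ∪ u` is not a coboundary in `Mˣ`. -/
theorem exists_unit_carry_not_isCob₂ (hn : n ≠ 0) :
    ∃ u : ℤ_[p]ˣ, ¬ IsCob₂ (Rep.ofAlgebraAutOnUnits ℚ_[p] M)
      (carry (Rep.ofAlgebraAutOnUnits ℚ_[p] M) χM
        (Additive.ofMul (Units.map (algebraMap ℚ_[p] M : ℚ_[p] →* M)
          (Units.map (PadicInt.Coe.ringHom (p := p)).toMonoidHom u)))) := by
  obtain ⟨sM, hsM⟩ := exists_gen_level p hp2 n M χM hcomp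
  obtain ⟨u, hu⟩ := exists_unit_not_prod_pow_level p hp2 n M χM hcomp sM hsM hn
  refine ⟨u, fun hcob => hu ?_⟩
  have hs : chiVal χM sM = 1 := by rw [chiVal, hsM]; rfl
  set a : Mˣ := Units.map (algebraMap ℚ_[p] M : ℚ_[p] →* M)
    (Units.map (PadicInt.Coe.ringHom (p := p)).toMonoidHom u) with ha
  have hainv : ∀ g : M ≃ₐ[ℚ_[p]] M,
      (Rep.ofAlgebraAutOnUnits ℚ_[p] M).ρ g (Additive.ofMul a) = Additive.ofMul a := by
    intro g
    show Additive.ofMul (Units.map ((g : M ≃ₐ[ℚ_[p]] M) : M →* M) a) = Additive.ofMul a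
    congr 1
    apply Units.ext
    exact g.commutes _
  obtain ⟨b, hbfix, hab⟩ := exists_norm_of_carry_isCob₂
    (C := Rep.ofAlgebraAutOnUnits ℚ_[p] M) (χ := χM) (s := sM) (a := Additive.ofMul a) hs
    (hilbert90_elementary p M χM.ker) hainv hcob
  refine ⟨Additive.toMul (b : Additive Mˣ), fun g hg => ?_, ?_⟩
  · have := hbfix g hg
    have h2 := congrArg (fun w : Additive Mˣ => ((Additive.toMul w : Mˣ) : M)) this
    exact h2
  · have h1 : partialNorm (Rep.ofAlgebraAutOnUnits ℚ_[p] M) sM b (p ^ n) =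
        Additive.ofMul (∏ i ∈ Finset.range (p ^ n),
          Units.map ((sM ^ i : M ≃ₐ[ℚ_[p]] M) : M →* M) (Additive.toMul (b : Additive Mˣ))) :=
      partialNorm_ofMul p M sM (Additive.toMul (b : Additive Mˣ)) (p ^ n)
    rw [h1] at hab
    have h2 := congrArg (fun w : Additive Mˣ => ((Additive.toMul w : Mˣ) : M)) hab
    simp only [toMul_ofMul, Units.coe_prod] at h2
    have h3 : ∀ i : ℕ, ((Units.map ((sM ^ i : M ≃ₐ[ℚ_[p]] M) : M →* M)
        (Additive.toMul (b : Additive Mˣ)) : Mˣ) : M) =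
        (sM ^ i) ((Additive.toMul (b : Additive Mˣ) : Mˣ) : M) := fun i => rfl
    simp only [h3] at h2
    rw [← h2]
    rfl

end Fermat.Agent.S55.CycloRecip78
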