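/-
S55 / 34-CYCLO-RECIP, part 34-P (helper78): the COMPLETE wild local statement at finite level in
`Rep` language: for `M/ℚ_p` finite normal inside `PadicAlgCl p`, `χM` inflating to the local tower
character, and `x ∈ ℚ_pˣ`:   `δχM ∪ x` is a coboundary in `Mˣ`  ↔  `fakeSymbol n x = 1`.
Uniform (H4): a unit `u` with `fakeSymbol n u ≠ 1` exists for `n ≥ 1` and works at EVERY level.
-/
import Mathlib
import Fermat.Agent.S55.CycloRecip78.ElevInst

set_option autoImplicit false
set_option linter.style.haveILetI false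

namespace Fermat.Agent.S55.CycloRecip78

open Fermat.Agent.S55.CycloRecip90 Fermat.Agent.S55.LocField17 Fermat.Agent.S55.GlobalInv91

section Unit

variable (p : ℕ) [hp : Fact p.Prime]

/-- for `n ≥ 1` some unit of `ℤ_p` has nontrivial explicit symbol. -/
theorem exists_unit_fakeSymbol_ne_one (hp2 : p ≠ 2) {n : ℕ} (hn : n ≠ 0) :
    ∃ u : ℤ_[p]ˣ,
      fakeSymbol (p := p) n (Units.map (PadicInt.Coe.ringHom (p := p)).toMonoidHom u) ≠ 1 := by
  have hidx := index_ker_fakeSymbol (p := p) hp2 n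
  have hne : (fakeSymbol (p := p) n).ker ≠ ⊤ := by
    intro htop
    rw [htop, Subgroup.index_top] at hidx
    have : 1 < p ^ n := Nat.one_lt_pow hn hp.out.one_lt
    omega
  obtain ⟨x, hx⟩ : ∃ x : ℚ_[p]ˣ, fakeSymbol (p := p) n x ≠ 1 := by
    by_contra hall
    push Not at hall
    exact hne (by ext x; simp [MonoidHom.mem_ker, hall x])
  refine ⟨unitPart x, ?_⟩
  rw [fakeSymbol_apply, unitPart_coe_unit]
  rw [fakeSymbol_apply] at hx
  exact hx

end Unit

variable (p : ℕ) [hp : Fact p.Prime] (hp2 : p ≠ 2) (n : ℕ)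
  (M : LF p) [Normal ℚ_[p] M] [FiniteDimensional ℚ_[p] M]
  (χM : (M ≃ₐ[ℚ_[p]] M) →* Multiplicative (ZMod (p ^ n)))
  (hcomp : ∀ τ : GalP p, χM (AlgEquiv.restrictNormalHom M τ) = locTowerChar p hp2 n τ)

include hcomp

/-- **the wild local symbol, finite level, `Rep` language.**  `δχM ∪ x` is a coboundary in `Mˣ` iff
`fakeSymbol n x = 1`. -/
theorem carry_isCob₂_iff_fakeSymbol (x : ℚ_[p]ˣ) :
    IsCob₂ (Rep.ofAlgebraAutOnUnits ℚ_[p] M)
      (carry (Rep.ofAlgebraAutOnUnits ℚ_[p] M) χM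
        (Additive.ofMul (Units.map (algebraMap ℚ_[p] M : ℚ_[p] →* M) x))) ↔
      fakeSymbol (p := p) n x = 1 := by
  obtain ⟨sM, hsM⟩ := exists_gen_level p hp2 n M χM hcomp
  have hs : chiVal χM sM = 1 := by rw [chiVal, hsM]; rfl
  rw [← exists_prod_pow_iff_fakeSymbol_level p hp2 n M χM hcomp sM hsM x]
  set a : Mˣ := Units.map (algebraMap ℚ_[p] M : ℚ_[p] →* M) x with ha
  constructor
  · intro hcob
    have hainv : ∀ g : M ≃ₐ[ℚ_[p]] M,
        (Rep.ofAlgebraAutOnUnits ℚ_[p] M).ρ g (Additive.ofMul a) = Additive.ofMul a := by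
      intro g
      show Additive.ofMul (Units.map ((g : M ≃ₐ[ℚ_[p]] M) : M →* M) a) = Additive.ofMul a
      congr 1
      apply Units.ext
      exact g.commutes _
    obtain ⟨b, hbfix, hab⟩ := exists_norm_of_carry_isCob₂
      (C := Rep.ofAlgebraAutOnUnits ℚ_[p] M) (χ := χM) (s := sM) (a := Additive.ofMul a) hs
      (hilbert90_elementary p M χM.ker) hainv hcob
    refine ⟨Additive.toMul (b : Additive Mˣ), fun g hg => ?_, ?_⟩
    · have := hbfix g hg
      exact congrArg (fun w : Additive Mˣ => ((Additive.toMul w : Mˣ) : M)) this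
    · have h1 : partialNorm (Rep.ofAlgebraAutOnUnits ℚ_[p] M) sM b (p ^ n) =
          Additive.ofMul (∏ i ∈ Finset.range (p ^ n),
            Units.map ((sM ^ i : M ≃ₐ[ℚ_[p]] M) : M →* M) (Additive.toMul (b : Additive Mˣ))) :=
        partialNorm_ofMul p M sM (Additive.toMul (b : Additive Mˣ)) (p ^ n)
      rw [h1] at hab
      have h2 := congrArg (fun w : Additive Mˣ => ((Additive.toMul w : Mˣ) : M)) hab
      simp only [toMul_ofMul, Units.coe_prod] at h2
      have h3 : ∀ i : ℕ, ((Units.map ((sM ^ i : M ≃ₐ[ℚ_[p]] M) : M →* M)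
          (Additive.toMul (b : Additive Mˣ)) : Mˣ) : M) =
          (sM ^ i) ((Additive.toMul (b : Additive Mˣ) : Mˣ) : M) := fun i => rfl
      simp only [h3] at h2
      rw [← h2]
      rfl
  · rintro ⟨b, hb, hx⟩
    have hb' : ∀ z : M ≃ₐ[ℚ_[p]] M, χM z = 1 →
        (Rep.ofAlgebraAutOnUnits ℚ_[p] M).ρ z (Additive.ofMul b) = Additive.ofMul b := by
      intro z hz
      show Additive.ofMul (Units.map ((z : M ≃ₐ[ℚ_[p]] M) : M →* M) b) = Additive.ofMul b
      congr 1
      apply Units.ext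
      exact hb z hz
    have h := carry_isCob₂_of_norm (C := Rep.ofAlgebraAutOnUnits ℚ_[p] M) (χ := χM) (s := sM)
      (b := Additive.ofMul b) hs hb'
    have hnorm : partialNorm (Rep.ofAlgebraAutOnUnits ℚ_[p] M) sM (Additive.ofMul b) (p ^ n) =
        Additive.ofMul a := by
      rw [partialNorm_ofMul]
      congr 1
      apply Units.ext
      rw [Units.coe_prod]
      have h2 : ∀ i : ℕ, ((Units.map ((sM ^ i : M ≃ₐ[ℚ_[p]] M) : M →* M) b : Mˣ) : M) =
          (sM ^ i) (b : M) := fun i => rfl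
      simp only [h2]
      rw [hx]
      rfl
    rw [hnorm] at h
    exact h

omit hcomp in
/-- the same in helper73's model `E = Elev p L`, `χ = towerCharE`. -/
theorem carry_isCob₂_iff_fakeSymbol_Elev
    (L : IntermediateField ℚ Fermat.Agent.S55.Idele73.Basic.Qbar) [Normal ℚ L]
    [FiniteDimensional ℚ L] (h : Fermat.Agent.S55.CycloGlobal87.towerField p n ≤ L) (x : ℚ_[p]ˣ) :
    IsCob₂ (Fermat.Agent.S55.Idele73.Local.EUnits p L)
      (carry (Fermat.Agent.S55.Idele73.Local.EUnits p L) (towerCharE p hp2 n L h)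
        (Additive.ofMul (Units.map (algebraMap ℚ_[p] (Fermat.Agent.S55.Idele73.Local.Elev p L) :
          ℚ_[p] →* Fermat.Agent.S55.Idele73.Local.Elev p L) x))) ↔
      fakeSymbol (p := p) n x = 1 :=
  carry_isCob₂_iff_fakeSymbol p hp2 n (Fermat.Agent.S55.Idele73.Local.Elev p L)
    (towerCharE p hp2 n L h) (towerCharE_restrictNormalHom p hp2 n L h) x

end Fermat.Agent.S55.CycloRecip78
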