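/-
S55 / 34-CYCLO-RECIP, part 34-P (helper78): the cyclotomic polynomials `Φ_{p^(n+1)}` are
irreducible over `ℚ_[p]` (Eisenstein at `p` over `ℤ_[p]` + Gauss).  Mathlib only.
-/
import Mathlib

set_option autoImplicit false

namespace Fermat.Agent.S55.CycloRecip78

open Polynomial

variable (p : ℕ) [hp : Fact p.Prime]

/-- an integer which is divisible by `p^k` in `ℤ_[p]` is divisible by `p^k` in `ℤ`. -/
lemma int_dvd_of_padicInt_dvd (k : ℕ) (a : ℤ) (h : (p : ℤ_[p]) ^ k ∣ (a : ℤ_[p])) :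
    (p : ℤ) ^ k ∣ a := by
  rw [← PadicInt.norm_int_le_pow_iff_dvd]
  rw [PadicInt.norm_le_pow_iff_mem_span_pow, Ideal.mem_span_singleton]
  exact h

/-- `Φ_{p^(n+1)}(X+1)` is Eisenstein at `(p)` over `ℤ_[p]`. -/
theorem cyclotomic_comp_isEisensteinAt_padicInt (n : ℕ) :
    ((cyclotomic (p ^ (n + 1)) ℤ_[p]).comp (X + 1)).IsEisensteinAt
      (Ideal.span {(p : ℤ_[p])}) := by
  have h := cyclotomic_prime_pow_comp_X_add_one_isEisensteinAt p n
  set f : ℤ[X] := (cyclotomic (p ^ (n + 1)) ℤ).comp (X + 1) with hf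
  have hmap : (cyclotomic (p ^ (n + 1)) ℤ_[p]).comp (X + 1) = f.map (Int.castRingHom ℤ_[p]) := by
    rw [hf, Polynomial.map_comp, map_cyclotomic]
    simp
  have hmonic : f.Monic := by
    rw [hf, show (X + 1 : ℤ[X]) = X + C 1 by simp]
    refine (cyclotomic.monic _ ℤ).comp (monic_X_add_C 1) fun h0 => ?_
    rw [natDegree_X_add_C] at h0
    exact one_ne_zero h0
  have hmonic' : (f.map (Int.castRingHom ℤ_[p])).Monic := hmonic.map _
  have hdeg : (f.map (Int.castRingHom ℤ_[p])).natDegree = f.natDegree :=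
    hmonic.natDegree_map _
  have hprime : (Ideal.span {(p : ℤ_[p])}).IsPrime := by
    rw [Ideal.span_singleton_prime (by exact_mod_cast hp.out.ne_zero)]
    exact PadicInt.prime_p
  rw [hmap]
  refine Monic.isEisensteinAt_of_mem_of_notMem hmonic' hprime.ne_top (fun {i} hi => ?_) ?_
  · rw [hdeg] at hi
    have := h.mem hi
    rw [coeff_map]
    rw [Ideal.mem_span_singleton] at this ⊢
    obtain ⟨c, hc⟩ := this
    exact ⟨(c : ℤ_[p]), by rw [hc]; simp⟩
  · intro hmem
    apply h.notMem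
    rw [coeff_map] at hmem
    rw [Ideal.span_singleton_pow, Ideal.mem_span_singleton] at hmem ⊢
    have := int_dvd_of_padicInt_dvd p 2 (f.coeff 0) (by simpa using hmem)
    exact this

/-- `Φ_{p^(n+1)}(X+1)` is irreducible over `ℤ_[p]`. -/
theorem irreducible_cyclotomic_comp_padicInt (n : ℕ) :
    Irreducible ((cyclotomic (p ^ (n + 1)) ℤ_[p]).comp (X + 1)) := by
  have hE := cyclotomic_comp_isEisensteinAt_padicInt p n
  have hprime : (Ideal.span {(p : ℤ_[p])}).IsPrime := by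
    rw [Ideal.span_singleton_prime (by exact_mod_cast hp.out.ne_zero)]
    exact PadicInt.prime_p
  have hmonic : ((cyclotomic (p ^ (n + 1)) ℤ_[p]).comp (X + 1)).Monic := by
    rw [show (X + 1 : ℤ_[p][X]) = X + C 1 by simp]
    refine (cyclotomic.monic _ ℤ_[p]).comp (monic_X_add_C 1) fun h0 => ?_
    rw [natDegree_X_add_C] at h0
    exact one_ne_zero h0
  refine hE.irreducible hprime hmonic.isPrimitive ?_
  rw [show (X + 1 : ℤ_[p][X]) = X + C 1 by simp, natDegree_comp, natDegree_X_add_C, mul_one,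
    natDegree_cyclotomic]
  exact Nat.totient_pos.2 (pow_pos hp.out.pos _)

/-- `Φ_{p^(n+1)}` is irreducible over `ℤ_[p]`. -/
theorem irreducible_cyclotomic_prime_pow_padicInt (n : ℕ) :
    Irreducible (cyclotomic (p ^ (n + 1)) ℤ_[p]) := by
  have h := irreducible_cyclotomic_comp_padicInt p n
  have he : (cyclotomic (p ^ (n + 1)) ℤ_[p]).comp (X + 1) =
      (Polynomial.algEquivAevalXAddC (1 : ℤ_[p])) (cyclotomic (p ^ (n + 1)) ℤ_[p]) := by
    simp [Polynomial.algEquivAevalXAddC, Polynomial.aeval_def, Polynomial.comp]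
  rw [he] at h
  exact (MulEquiv.irreducible_iff (Polynomial.algEquivAevalXAddC (1 : ℤ_[p]))).1 h

/-- **(P1)** `Φ_{p^(n+1)}` is irreducible over `ℚ_[p]`. -/
theorem irreducible_cyclotomic_prime_pow_padic (n : ℕ) :
    Irreducible (cyclotomic (p ^ (n + 1)) ℚ_[p]) := by
  have h := irreducible_cyclotomic_prime_pow_padicInt p n
  have hm : (cyclotomic (p ^ (n + 1)) ℤ_[p]).Monic := cyclotomic.monic _ _
  rw [hm.irreducible_iff_irreducible_map_fraction_map (K := ℚ_[p]), map_cyclotomic] at h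
  exact h

/-- `Φ_{p^k}` is irreducible over `ℚ_[p]` for every `k ≥ 1`. -/
theorem irreducible_cyclotomic_prime_pow_padic' {k : ℕ} (hk : k ≠ 0) :
    Irreducible (cyclotomic (p ^ k) ℚ_[p]) := by
  obtain ⟨n, rfl⟩ := Nat.exists_eq_succ_of_ne_zero hk
  exact irreducible_cyclotomic_prime_pow_padic p n

end Fermat.Agent.S55.CycloRecip78
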