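/-
S55 / 34-CYCLO-RECIP, part 34-P (helper78): the wild case (R3) of the explicit reciprocity map
of the cyclotomic `ℤ_p`-tower.  For a subfield `E` of `ℚ_p(ζ_{p^(n+1)})` of degree `p^n` over
`ℚ_p` whose norm group has index at least `p^n` (local first inequality, 14-LOC-H), the norm
group of `E` is the kernel of helper90's explicit symbol `fakeSymbol n = ρ_p`.
-/
import Mathlib
import Fermat.Agent.S55.CycloRecip78.Irred
import Fermat.Agent.S55.CycloRecip90.FakeSymbol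

set_option autoImplicit false

namespace Fermat.Agent.S55.CycloRecip78

open Polynomial IntermediateField

/-- the norm group `N(Eˣ) ≤ Kˣ`. -/
noncomputable def normRange (K E : Type*) [Field K] [Field E] [Algebra K E] : Subgroup Kˣ :=
  (Units.map (Algebra.norm K : E →* K)).range

lemma mem_normRange_iff {K E : Type*} [Field K] [Field E] [Algebra K E] {x : Kˣ} :
    x ∈ normRange K E ↔ ∃ y : Eˣ, Algebra.norm K (y : E) = (x : K) := by
  constructor
  · rintro ⟨y, rfl⟩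
    exact ⟨y, rfl⟩
  · rintro ⟨y, hy⟩
    exact ⟨y, Units.ext hy⟩

lemma mem_normRange_of_norm_eq {K E : Type*} [Field K] [Field E] [Algebra K E]
    [FiniteDimensional K E] {x : Kˣ} {y : E} (h : Algebra.norm K y = (x : K)) :
    x ∈ normRange K E := by
  have hy : y ≠ 0 := by
    rintro rfl
    rw [Algebra.norm_zero] at h
    exact x.ne_zero h.symm
  exact mem_normRange_iff.2 ⟨Units.mk0 y hy, h⟩

/-- `x^[E:K]` is a norm. -/
lemma pow_finrank_mem_normRange {K E : Type*} [Field K] [Field E] [Algebra K E]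
    [FiniteDimensional K E] (x : Kˣ) : x ^ Module.finrank K E ∈ normRange K E := by
  apply mem_normRange_of_norm_eq (y := algebraMap K E x)
  rw [Algebra.norm_algebraMap, Units.val_pow_eq_pow_val]

section Generic

variable {K Ω : Type*} [Field K] [Field Ω] [Algebra K Ω] (p : ℕ) [hp : Fact p.Prime] {n : ℕ}
  {ζ : Ω}

lemma isIntegral_root (hζ : IsPrimitiveRoot ζ (p ^ (n + 1))) : IsIntegral K ζ :=
  (hζ.isIntegral (pow_pos hp.out.pos _)).tower_top

lemma isCyclotomicExtension_adjoin (hζ : IsPrimitiveRoot ζ (p ^ (n + 1))) :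
    IsCyclotomicExtension {p ^ (n + 1)} K K⟮ζ⟯ := by
  have : NeZero (p ^ (n + 1)) := ⟨pow_ne_zero _ hp.out.ne_zero⟩
  change IsCyclotomicExtension {p ^ (n + 1)} K K⟮ζ⟯.toSubalgebra
  rw [IntermediateField.adjoin_simple_toSubalgebra_of_isAlgebraic
    (isIntegral_root p hζ).isAlgebraic]
  exact hζ.adjoin_isCyclotomicExtension K

omit hp in
lemma isPrimitiveRoot_gen (hζ : IsPrimitiveRoot ζ (p ^ (n + 1))) :
    IsPrimitiveRoot (AdjoinSimple.gen K ζ) (p ^ (n + 1)) := by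
  apply IsPrimitiveRoot.of_map_of_injective (f := algebraMap K⟮ζ⟯ Ω) _
    (FaithfulSMul.algebraMap_injective _ _)
  rwa [AdjoinSimple.algebraMap_gen]

theorem finiteDimensional_adjoin (hζ : IsPrimitiveRoot ζ (p ^ (n + 1))) :
    FiniteDimensional K K⟮ζ⟯ :=
  IntermediateField.adjoin.finiteDimensional (isIntegral_root p hζ)

theorem isGalois_adjoin (hζ : IsPrimitiveRoot ζ (p ^ (n + 1))) : IsGalois K K⟮ζ⟯ := by
  have := isCyclotomicExtension_adjoin (K := K) p hζ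
  exact IsCyclotomicExtension.isGalois {p ^ (n + 1)} K K⟮ζ⟯

/-- **(P2)** degree of `K(ζ_{p^(n+1)})`. -/
theorem finrank_adjoin (hζ : IsPrimitiveRoot ζ (p ^ (n + 1)))
    (hirr : Irreducible (cyclotomic (p ^ (n + 1)) K)) :
    Module.finrank K K⟮ζ⟯ = p ^ n * (p - 1) := by
  have := isCyclotomicExtension_adjoin (K := K) p hζ
  rw [IsCyclotomicExtension.finrank (n := p ^ (n + 1)) K⟮ζ⟯ hirr,
    Nat.totient_prime_pow hp.out (Nat.succ_pos n)]
  simp

/-- **(P2)** `N(ζ - 1) = p`. -/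
theorem norm_gen_sub_one (hζ : IsPrimitiveRoot ζ (p ^ (n + 1)))
    (hirr : Irreducible (cyclotomic (p ^ (n + 1)) K)) (hp2 : p ≠ 2) :
    Algebra.norm K (AdjoinSimple.gen K ζ - 1) = (p : K) := by
  have := isCyclotomicExtension_adjoin (K := K) p hζ
  exact (isPrimitiveRoot_gen (K := K) p hζ).norm_sub_one_of_prime_ne_two hirr hp2

/-- **(P2)** `Gal(K(ζ_{p^(n+1)})/K) ≃ (ℤ/p^(n+1))ˣ`. -/
noncomputable def galEquiv (hζ : IsPrimitiveRoot ζ (p ^ (n + 1)))
    (hirr : Irreducible (cyclotomic (p ^ (n + 1)) K)) :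
    (K⟮ζ⟯ ≃ₐ[K] K⟮ζ⟯) ≃* (ZMod (p ^ (n + 1)))ˣ :=
  haveI : NeZero (p ^ (n + 1)) := ⟨pow_ne_zero _ hp.out.ne_zero⟩
  haveI := isCyclotomicExtension_adjoin (K := K) p hζ
  IsCyclotomicExtension.autEquivPow K⟮ζ⟯ hirr

theorem isCyclic_gal_adjoin (hζ : IsPrimitiveRoot ζ (p ^ (n + 1)))
    (hirr : Irreducible (cyclotomic (p ^ (n + 1)) K)) (hp2 : p ≠ 2) :
    IsCyclic (K⟮ζ⟯ ≃ₐ[K] K⟮ζ⟯) := by
  have : IsCyclic (ZMod (p ^ (n + 1)))ˣ := ZMod.isCyclic_units_of_prime_pow p hp.out hp2 _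
  exact isCyclic_of_surjective (galEquiv (K := K) p hζ hirr).symm
    (galEquiv (K := K) p hζ hirr).symm.surjective

/-- `p` is a norm from every subfield of `K(ζ_{p^(n+1)})`. -/
theorem exists_norm_eq_prime (hζ : IsPrimitiveRoot ζ (p ^ (n + 1)))
    (hirr : Irreducible (cyclotomic (p ^ (n + 1)) K)) (hp2 : p ≠ 2)
    (E : IntermediateField K Ω) (hE : E ≤ K⟮ζ⟯) : ∃ y : E, Algebra.norm K y = (p : K) := by
  have := finiteDimensional_adjoin (K := K) p hζ
  let E' : IntermediateField K K⟮ζ⟯ := IntermediateField.restrict hE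
  let e : E ≃ₐ[K] E' := IntermediateField.restrictAlgEquiv hE
  refine ⟨e.symm (Algebra.norm E' (AdjoinSimple.gen K ζ - 1)), ?_⟩
  rw [Algebra.norm_eq_of_algEquiv e.symm, Algebra.norm_norm, norm_gen_sub_one p hζ hirr hp2]

end Generic

section Padic

open Fermat.Agent.S55.CycloRecip90

variable (p : ℕ) [hp : Fact p.Prime] {Ω : Type*} [Field Ω] [Algebra ℚ_[p] Ω] {n : ℕ} {ζ : Ω}

theorem finrank_adjoin_padic (hζ : IsPrimitiveRoot ζ (p ^ (n + 1))) :
    Module.finrank ℚ_[p] ℚ_[p]⟮ζ⟯ = p ^ n * (p - 1) :=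
  finrank_adjoin p hζ (irreducible_cyclotomic_prime_pow_padic p n)

theorem finiteDimensional_of_le_adjoin (hζ : IsPrimitiveRoot ζ (p ^ (n + 1)))
    (E : IntermediateField ℚ_[p] Ω) (hE : E ≤ ℚ_[p]⟮ζ⟯) : FiniteDimensional ℚ_[p] E := by
  have := finiteDimensional_adjoin (K := ℚ_[p]) p hζ
  exact FiniteDimensional.of_injective (IntermediateField.inclusion hE).toLinearMap
    (IntermediateField.inclusion_injective hE)

/-- **(P3)** `p` is a norm from every subfield of `ℚ_p(ζ_{p^(n+1)})`. -/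
theorem pUnit_mem_normRange (hp2 : p ≠ 2) (hζ : IsPrimitiveRoot ζ (p ^ (n + 1)))
    (E : IntermediateField ℚ_[p] Ω) (hE : E ≤ ℚ_[p]⟮ζ⟯) :
    (pUnit : ℚ_[p]ˣ) ∈ normRange ℚ_[p] E := by
  have := finiteDimensional_of_le_adjoin p hζ E hE
  obtain ⟨y, hy⟩ := exists_norm_eq_prime p hζ (irreducible_cyclotomic_prime_pow_padic p n) hp2 E hE
  exact mem_normRange_of_norm_eq (y := y) (by rw [hy]; rfl)

/-- **(P3)** the kernel of the explicit symbol consists of norms. -/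
theorem ker_fakeSymbol_le_normRange (hp2 : p ≠ 2) (hζ : IsPrimitiveRoot ζ (p ^ (n + 1)))
    (E : IntermediateField ℚ_[p] Ω) (hE : E ≤ ℚ_[p]⟮ζ⟯)
    (hdeg : Module.finrank ℚ_[p] E = p ^ n) :
    (fakeSymbol (p := p) n).ker ≤ normRange ℚ_[p] E := by
  have := finiteDimensional_of_le_adjoin p hζ E hE
  refine ker_fakeSymbol_le hp2 n _ (pUnit_mem_normRange p hp2 hζ E hE) (fun x => ?_)
  rw [← hdeg]
  exact pow_finrank_mem_normRange x

/-- **(P3)** if moreover `[ℚ_pˣ : N Eˣ] ≥ p^n` (local first inequality), the norm group of `E` IS the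
kernel of the explicit symbol. -/
theorem normRange_eq_ker_fakeSymbol (hp2 : p ≠ 2) (hζ : IsPrimitiveRoot ζ (p ^ (n + 1)))
    (E : IntermediateField ℚ_[p] Ω) (hE : E ≤ ℚ_[p]⟮ζ⟯)
    (hdeg : Module.finrank ℚ_[p] E = p ^ n)
    (hidx : p ^ n ≤ (normRange ℚ_[p] E).index) :
    normRange ℚ_[p] E = (fakeSymbol (p := p) n).ker := by
  have hle := ker_fakeSymbol_le_normRange p hp2 hζ E hE hdeg
  refine le_antisymm ?_ hle
  have h1 := Subgroup.relIndex_mul_index hle
  rw [index_ker_fakeSymbol hp2 n] at h1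
  have hpos : 0 < p ^ n := pow_pos hp.out.pos n
  have hidx0 : 0 < (normRange ℚ_[p] E).index := lt_of_lt_of_le hpos hidx
  have h2 : (fakeSymbol (p := p) n).ker.relIndex (normRange ℚ_[p] E) = 1 := by
    have h3 : (fakeSymbol (p := p) n).ker.relIndex (normRange ℚ_[p] E) ≠ 0 := by
      intro h0
      rw [h0, zero_mul] at h1
      omega
    have h4 : (fakeSymbol (p := p) n).ker.relIndex (normRange ℚ_[p] E) *
        (normRange ℚ_[p] E).index ≤ 1 * (normRange ℚ_[p] E).index := by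
      rw [h1, one_mul]; exact hidx
    have h5 := Nat.le_of_mul_le_mul_right h4 hidx0
    omega
  exact Subgroup.relIndex_eq_one.1 h2

/-- **(R3)** local norms from the degree-`p^n` layer die under `ρ_p = fakeSymbol n`. -/
theorem fakeSymbol_norm_eq_one (hp2 : p ≠ 2) (hζ : IsPrimitiveRoot ζ (p ^ (n + 1)))
    (E : IntermediateField ℚ_[p] Ω) (hE : E ≤ ℚ_[p]⟮ζ⟯)
    (hdeg : Module.finrank ℚ_[p] E = p ^ n)
    (hidx : p ^ n ≤ (normRange ℚ_[p] E).index) (y : Eˣ) :
    fakeSymbol (p := p) n (Units.map (Algebra.norm ℚ_[p] : E →* ℚ_[p]) y) = 1 := by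
  have h : Units.map (Algebra.norm ℚ_[p] : E →* ℚ_[p]) y ∈ normRange ℚ_[p] E := ⟨y, rfl⟩
  rw [normRange_eq_ker_fakeSymbol p hp2 hζ E hE hdeg hidx] at h
  exact h

/-- the index of the norm group is then exactly `p^n`. -/
theorem index_normRange (hp2 : p ≠ 2) (hζ : IsPrimitiveRoot ζ (p ^ (n + 1)))
    (E : IntermediateField ℚ_[p] Ω) (hE : E ≤ ℚ_[p]⟮ζ⟯)
    (hdeg : Module.finrank ℚ_[p] E = p ^ n)
    (hidx : p ^ n ≤ (normRange ℚ_[p] E).index) : (normRange ℚ_[p] E).index = p ^ n := by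
  rw [normRange_eq_ker_fakeSymbol p hp2 hζ E hE hdeg hidx, index_ker_fakeSymbol hp2 n]

end Padic

end Fermat.Agent.S55.CycloRecip78
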